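import Fermat.Agent.BAD.XC.Data
import Fermat.Agent.BAD.XH.Model
import Fermat.Agent.BAD.X0.LevelChange
import Fermat.Agent.GR.RT.Inertia

/-!
# `(⟨u⟩ - 1) (σ - 1) (σ - χ σ) = 0` up to a fixed index at level `Γ_H(K)`, `q ∥ K`

For odd `q ≠ p`: `X_H(K)` is covered by some `X_G(8 K' q)`, where `diamond_inertia_level` applies;
push forward again.

`Fermat.BAD.XC` (inertia at `q` with ramified nebentypus, for `CharInput`):
* `Normal`, `Series`, `Field`, `Compat`: the Atkin-Lehner automorphism at level `Γ_G(M q)`;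
* `Kummer`, `Unram`, `Scal`, `Data`: `X_G(M q) → X_H(M q)` as the input of `Cover`, hence
  `diamond_inertia_level`;
* `Transfer` (this file): the relation at level `Γ_H(K)`;
* `Point`: such relations pass to the representation at a point of the Hecke ring.
-/

set_option autoImplicit false

attribute [local instance 10000] SubalgebraClass.toAlgebra HahnSeries.powerSeriesAlgebra

noncomputable section

open AlgebraicCurve
open ModularCurve (arithmeticGalois galois_smul_pic0_def)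

namespace Fermat.BAD.XC

open Fermat.MC.Lvl Fermat.JAC Fermat.JAC.XH Fermat.GR.RT
open Fermat.JAC.X0 (embC)

local notation "Qb" => AlgebraicClosure ℚ

/-- The two definitions of the cyclotomic character modulo `N` agree. -/
theorem cycN_eq_cycK (N : ℕ) [NeZero N] (σ : Qb ≃ₐ[ℚ] Qb) : cycN N embC σ = cycK N σ :=
  Units.ext ((ZMod.natCast_zmod_val _).symm.trans
    (cycK_eq_of_apply (isPrimitiveRoot_zetaL N embC) (cycN_spec N embC σ)).symm)

/-- A unit is determined by its classes modulo coprime factors. -/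
theorem units_ext_of_unitsMap {M q : ℕ} [NeZero M] [NeZero q] (hcop : M.Coprime q)
    {a b : (ZMod (M * q))ˣ}
    (h1 : ZMod.unitsMap (dvd_mul_right M q) a = ZMod.unitsMap (dvd_mul_right M q) b)
    (h2 : ZMod.unitsMap (dvd_mul_left q M) a = ZMod.unitsMap (dvd_mul_left q M) b) : a = b := by
  have h1' := congrArg Units.val h1
  have h2' := congrArg Units.val h2
  rw [ZMod.unitsMap_val, ZMod.unitsMap_val, ← ZMod.natCast_val, ← ZMod.natCast_val,
    ZMod.natCast_eq_natCast_iff] at h1' h2'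
  have h3 := (Nat.modEq_and_modEq_iff_modEq_mul hcop).mp ⟨h1', h2'⟩
  refine Units.ext ?_
  rw [← ZMod.natCast_zmod_val (a : ZMod (M * q)), ← ZMod.natCast_zmod_val (b : ZMod (M * q))]
  exact (ZMod.natCast_eq_natCast_iff _ _ _).mpr h3

/-- `Γ_G(N) ≤ Γ_H(K)` for `K ∣ N` if `G` reduces into `H`. -/
theorem GammaH_le_of_le_comap {K N : ℕ} (h : K ∣ N) {H : Subgroup (ZMod K)ˣ}
    {G : Subgroup (ZMod N)ˣ} (hG : G ≤ H.comap (ZMod.unitsMap h)) : GammaH N G ≤ GammaH K H :=
  (GammaH_mono hG).trans ((GammaH_inf_Gamma0 h).ge.trans inf_le_left)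

/-- An inertia element at `q` whose cyclotomic character generates the units trivial modulo `M`. -/
theorem exists_kernel_generator {M q : ℕ} [NeZero M] [NeZero q] (hq : q.Prime) (hqM : ¬ q ∣ M)
    {A : ValuationSubring Qb} (hA : A.LiesOverPrime q) :
    ∃ σ₀ ∈ A.inertiaSubgroupIn ℚ,
      ZMod.unitsMap (dvd_mul_right M q) (cycK (M * q) σ₀) = 1 ∧
      cycK (M * q) σ₀ ^ (q - 1) = 1 ∧
      ∀ w, ZMod.unitsMap (dvd_mul_right M q) w = 1 →
        w ∈ Subgroup.zpowers (cycK (M * q) σ₀) := by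
  have := Fact.mk hq
  have hcop : M.Coprime q := (hq.coprime_iff_not_dvd.mpr hqM).symm
  obtain ⟨c, hc⟩ := IsCyclic.exists_generator (α := (ZMod q)ˣ)
  obtain ⟨σ₀, hσ₀, hσ₀c⟩ := CFT.exists_mem_inertia_cycChar hA c
  set u₀ := cycK (M * q) σ₀
  have hu₀q : ZMod.unitsMap (dvd_mul_left q M) u₀ = c := by
    rw [unitsMap_cycK, cycK_prime_eq_cycChar, hσ₀c]
  have hu₀M : ZMod.unitsMap (dvd_mul_right M q) u₀ = 1 := by
    rw [unitsMap_cycK, cycK_inertia hq (hq.coprime_iff_not_dvd.mpr hqM) hA hσ₀]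
  have hker : ∀ w, ZMod.unitsMap (dvd_mul_right M q) w = 1 →
      w ∈ Subgroup.zpowers u₀ := fun w hw => by
    obtain ⟨i, hi⟩ := hc (ZMod.unitsMap (dvd_mul_left q M) w)
    refine ⟨i, units_ext_of_unitsMap hcop ?_ ?_⟩
    · change ZMod.unitsMap _ (u₀ ^ i) = _
      rw [map_zpow, hu₀M, one_zpow, hw]
    · change ZMod.unitsMap _ (u₀ ^ i) = _
      rw [map_zpow, hu₀q]
      exact hi
  refine ⟨σ₀, hσ₀, hu₀M, units_ext_of_unitsMap hcop
    (by rw [map_pow, hu₀M, one_pow, map_one])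
    (by rw [map_pow, hu₀q, map_one, ← ZMod.card_units q, pow_card_eq_one]), hker⟩

variable {p : ℕ} (hp : p.Prime) {K : ℕ} [NeZero K] (H : Subgroup (ZMod K)ˣ) [NegMem H]
variable {q K' : ℕ} (hq : q.Prime) (hqp : q ≠ p) (hK : K' * q = K) (hqK' : ¬ q ∣ K')

local notation "J" => Pic0 Qb (FL (GammaH K H) Qb)

include hp hq hqp hK hqK' in
/-- For odd `q`, inertia at `q` and a diamond trivial modulo `K'` satisfy `(⟨u₁⟩ - 1) (σ - 1) (σ -
⟨χ σ⟩) = 0` on torsion, up to a fixed nonzero integer. -/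
theorem exists_relation {A : ValuationSubring Qb} (hA : A.LiesOverPrime q) (hq2 : q ≠ 2)
    {σ : Qb ≃ₐ[ℚ] Qb} (hσ : σ ∈ A.inertiaSubgroupIn ℚ) {u₁ : (ZMod K)ˣ}
    (hu₁ : ((u₁ : ZMod K).val : ZMod K') = 1) :
    ∃ d : ℕ, d ≠ 0 ∧ ∀ (n : ℕ) (P : J), p ^ n • P = 0 →
      let C := SemilinearAut.ofAlgAut (diamondHom H embC (cycK K σ))
      let Δ := SemilinearAut.ofAlgAut (diamondHom H embC u₁)
      let R := σ • (σ • P - C • P) - (σ • P - C • P)
      d • (Δ • R - R) = 0 := by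
  have := Fact.mk hq
  have hK'0 : K' ≠ 0 := fun h => NeZero.ne K (by rw [← hK, h, zero_mul])
  set M := 8 * K' with hMdef
  have : NeZero M := ⟨by omega⟩
  have : NeZero q := ⟨hq.ne_zero⟩
  have hqM : ¬ q ∣ M := fun h => (hq.dvd_mul.mp h).elim
    (fun h8 => hq2 ((Nat.prime_dvd_prime_iff_eq hq Nat.prime_two).mp
      (hq.dvd_of_dvd_pow (show q ∣ 2 ^ 3 from h8)))) hqK'
  have hcop : M.Coprime q := (hq.coprime_iff_not_dvd.mpr hqM).symm
  have hKN : K ∣ M * q := ⟨8, by rw [← hK, hMdef]; ring⟩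
  have hM4 : 4 < M := by omega
  -- the groups
  let HM : Subgroup (ZMod M)ˣ := Subgroup.zpowers (-1)
  have : NegMem HM := ⟨Subgroup.mem_zpowers _⟩
  have hHM : ∀ w ∈ HM, w = 1 ∨ w = -1 := by
    rintro _ ⟨j, rfl⟩
    rcases Int.even_or_odd j with h | h
    · exact Or.inl (h.neg_one_zpow)
    · exact Or.inr (h.neg_one_zpow)
  let G : Subgroup (ZMod (M * q))ˣ := upH M HM q ⊓ H.comap (ZMod.unitsMap hKN)
  have : NegMem G := ⟨Subgroup.mem_inf.mpr
    ⟨(negMem_comap (H := HM) (dvd_mul_right M q)).neg_one_mem,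
    (negMem_comap (H := H) hKN).neg_one_mem⟩⟩
  have : SqOne M q G := ⟨fun u hu => by
    rcases hHM _ (Subgroup.mem_comap.mp (Subgroup.mem_inf.mp hu).1) with h | h <;> rw [h]
    · exact one_pow 2
    · exact neg_one_sq⟩
  obtain ⟨x, y, hxy⟩ : IsCoprime (q : ℤ) (M : ℤ) := (Nat.isCoprime_iff_coprime.mpr hcop).symm
  have hdet : (q : ℤ) * x - (M : ℤ) * (-y) = 1 := by linear_combination hxy
  -- residue field
  have := Fermat.RED.Model.isAlgClosed_residue A
  have := Fermat.RED.charP_residue hq hA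
  have := XH.isFunctionField_KH M q HM hq hqM hA
  obtain ⟨hν2, hν3⟩ := XH.nuG_GammaH_eq_zero M HM (Or.inl ⟨2 * K', by rw [hMdef]; ring⟩)
  -- the generator of the kernel
  have hcM : ∀ {τ : Qb ≃ₐ[ℚ] Qb}, τ ∈ A.inertiaSubgroupIn ℚ →
      ZMod.unitsMap (dvd_mul_right M q) (cycK (M * q) τ) = 1 := fun {τ} hτ => by
    rw [unitsMap_cycK, cycK_inertia hq (hq.coprime_iff_not_dvd.mpr hqM) hA hτ]
  obtain ⟨σ₀, hσ₀, hu₀M, hu₀1, hker⟩ := exists_kernel_generator hq hqM hA
  set u₀ := cycK (M * q) σ₀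
  have hgen : upH M HM q = G ⊔ Subgroup.zpowers u₀ := by
    refine le_antisymm (fun w hw => ?_) (sup_le inf_le_left (Subgroup.zpowers_le.mpr
      (Subgroup.mem_comap.mpr (hu₀M ▸ one_mem HM))))
    rcases hHM _ (Subgroup.mem_comap.mp hw) with h | h
    · exact (le_sup_right : _ ≤ G ⊔ _) (hker w h)
    · rw [← neg_neg w, ← neg_one_mul (-w)]
      refine Subgroup.mul_mem_sup (NegMem.neg_one_mem (H := G)) (hker _ ?_)
      rw [show ZMod.unitsMap (dvd_mul_right M q) (-w) = -ZMod.unitsMap (dvd_mul_right M q) w from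
        Units.ext (by simp [ZMod.unitsMap]), h, neg_neg]
  have hpar : ∀ u ∈ upH M HM q, ((u : ZMod (M * q)) - 1) ^ 2 = 0 → u ∈ G := fun u hu h => by
    rw [eq_one_of_sq hq hqM hM4 (hHM _ (Subgroup.mem_comap.mp hu)) h]
    exact one_mem G
  have hd : (deg G (upH M HM q) : IsLocalRing.ResidueField A) ≠ 0 := fun h => by
    rw [CharP.cast_eq_zero_iff (IsLocalRing.ResidueField A) q] at h
    have h1 : deg G (upH M HM q) ∣ q - 1 :=
      (pow_mem_iff u₀ hgen (q - 1)).mp (hu₀1 ▸ one_mem G)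
    have h2 := Nat.le_of_dvd (Nat.sub_pos_of_lt hq.one_lt) (h.trans h1)
    have := hq.one_lt
    omega
  -- the diamond
  obtain ⟨τ, hτ, hτu⟩ := exists_inertia_cycK hq hK hqK' hA u₁ hu₁
  set u := cycK (M * q) τ
  set v := cycK (M * q) σ
  have hle : GammaH (M * q) G ≤ GammaH K H := GammaH_le_of_le_comap hKN inf_le_right
  set φ := inclFL Qb hle
  refine ⟨finrankAlong Qb φ, X0.finrankAlong_ne_zero φ, fun n P hP => ?_⟩
  intro C Δ R
  have hn : ((p ^ n : ℕ) : IsLocalRing.ResidueField A) ≠ 0 := fun h => by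
    rw [CharP.cast_eq_zero_iff (IsLocalRing.ResidueField A) q] at h
    exact hqp ((Nat.prime_dvd_prime_iff_eq hq hp).mp (hq.dvd_of_dvd_pow h))
  have key := diamond_inertia_level M q HM G x (-y) hdet hq hqM hA hν2 hν3 u₀ hgen hpar hd hu₀M
    hσ₀ (cycN_eq_cycK _ _) hσ (cycN_eq_cycK _ _) (hcM hσ) (u := u)
    (Subgroup.mem_comap.mpr ((hcM hτ).symm ▸ one_mem HM)) hn
    (P := pullPic φ P) (by rw [← map_nsmul, hP, map_zero])
  have eσ : ∀ z : J, arithmeticGalois (FQ (GammaH (M * q) G)) σ • pullPic φ z = pullPic φ (σ • z) :=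
    fun z => by
      rw [galois_smul_pic0_def]
      exact (pullPic_smul (φ := φ) (ψ := φ) (s' := arithmeticGalois (FQ (GammaH (M * q) G)) σ)
        (inclFL_smul Qb hle σ) z).symm
  have ed : ∀ (w : (ZMod (M * q))ˣ) (z : J),
      SemilinearAut.ofAlgAut (diamondHom G embC w) • pullPic φ z =
        pullPic φ (SemilinearAut.ofAlgAut (diamondHom H embC (ZMod.unitsMap hKN w)) • z) :=
          fun w z =>
    (pullPic_smul (φ := φ) (ψ := φ)
      (s := SemilinearAut.ofAlgAut (diamondHom H embC (ZMod.unitsMap hKN w)))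
      (s' := SemilinearAut.ofAlgAut (diamondHom G embC w))
      (fun f => diamond_inclFL embC hKN hle w f) z).symm
  simp only [ed, eσ, ← map_sub] at key
  rw [unitsMap_cycK, unitsMap_cycK, hτu] at key
  rw [← X0.pushPic_pullPic φ]
  exact (congrArg (pushPic φ) key).trans (map_zero _)

end Fermat.BAD.XC

end
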