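import Fermat.Agent.BAD.XC.Field
import Fermat.Agent.BAD.XH.Setup

/-!
# Compatibility with the Atkin-Lehner involution of `X_H(M q)` and with the diamonds

`alF` extends the involution of level `Γ_H(M q)` (`alF_incl`), and Galois elements fixing the
roots of unity of order `M` commute with it up to a diamond (`alF_smul`).
-/

set_option autoImplicit false

attribute [local instance 10000] SubalgebraClass.toAlgebra HahnSeries.powerSeriesAlgebra

noncomputable section

open ModularCurve (qExpand)
open CongruenceSubgroup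
open scoped MatrixGroups

namespace Fermat.BAD.XC

open Fermat.MC.Lvl Fermat.JAC.XH
open Fermat.JAC.X0 (embC)

section Incl

variable {N N' : ℕ} [NeZero N] [NeZero N'] {H : Subgroup (ZMod N)ˣ} [NegMem H]
  {G : Subgroup (ZMod N')ˣ} [NegMem G] {L : Type*} [Field L] [Algebra ℚ L] (ι : L →+* ℂ)

/-- The inclusion of levels as the map induced by `inclMap`. -/
theorem inclFL_eq {Γ Γ' : Subgroup SL(2, ℤ)} [LevelGen Γ] [LevelGen Γ'] (h : Γ' ≤ Γ) (x : FL Γ L) :
    inclFL L h x = (inclMap h).mapL ι x :=
  Subtype.ext (by rw [coe_inclFL, coe_mapL_inclMap])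

/-- Diamonds commute with the inclusion of function fields of two levels. -/
theorem diamond_inclFL (hd : N ∣ N') (h : GammaH N' G ≤ GammaH N H) (u : (ZMod N')ˣ)
    (x : FL (GammaH N H) L) :
    diamondHom G ι u (inclFL L h x) = inclFL L h (diamondHom H ι (ZMod.unitsMap hd u) x) := by
  have hmem : ((unitLift u : Gamma0 N') : SL(2, ℤ)) ∈ Gamma0 N :=
    Fermat.MC.Gamma0_le_of_dvd N' hd (unitLift u).2
  have e : (diamondHom H ι (ZMod.unitsMap hd u) : FL (GammaH N H) L ≃ₐ[L] FL (GammaH N H) L) =
      diamond ι ⟨_, hmem⟩ := by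
    rw [← diamondHom_gamma0Units]
    refine congrArg _ (Units.ext ?_)
    have h' := congrArg Units.val (gamma0Units_unitLift u)
    simp only [coe_gamma0Units] at h'
    simp [ZMod.unitsMap, ← h']
  rw [e]
  change diamond ι (unitLift u) (inclFL L h x) = _
  rw [inclFL_eq ι, inclFL_eq ι]
  exact mapL_square (inclMap h) (transMap (ratNormal_Gamma0 hmem))
    (transMap (ratNormal_Gamma0 (unitLift u).2)) (fun f => rfl) ι x

end Incl

variable (M q : ℕ) [NeZero M] [NeZero q] (H : Subgroup (ZMod M)ˣ) [NegMem H]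
  (G : Subgroup (ZMod (M * q))ˣ) [NegMem G] [SqOne M q G]
  (x y : ℤ) (hdet : (q : ℤ) * x - M * y = 1) (hq : q.Prime) (hqM : ¬ q ∣ M)
  (hle : GammaH (M * q) G ≤ GammaH (M * q) (upH M H q))

local notation "Qb" => AlgebraicClosure ℚ

/-- The inclusion of the field of level `M q`. -/
abbrev incl : XH.FU M q H →ₐ[Qb] FL (GammaH (M * q) G) Qb := inclFL Qb hle

omit [SqOne M q G] in
/-- The inclusion after `α` is the inclusion from level `M`. -/
theorem incl_al (f : XH.FH M H) :
    incl M q H G hle (XH.al M q H f) = inclFL Qb (hle.trans (up_le M H q)) f :=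
  Subtype.ext (by rw [coe_inclFL, XH.coe_al, coe_inclFL])

/-- The Atkin-Lehner map carries the pullback along `α` of a function of level `M` to the pullback
along `β` of its diamond transform. -/
theorem alL_incl (f : XH.FH M H) :
    alL M q G x y hdet hq.one_lt embC (inclFL Qb (hle.trans (up_le M H q)) f) =
      incl M q H G hle (XH.be M q H (diamond embC ⟨_, swapMat_mem M q x y hdet⟩ f)) := by
  refine (toKW (GammaH (M * q) G) embC).injective ?_
  have e : ∀ g : XH.FU M q H, incl M q H G hle g = (inclMap hle).mapL embC g := inclFL_eq embC hle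
  rw [toKW_alL, e, betaH_eq q embC, inclFL_eq embC, RatMap.toKW_mapL, RatMap.toKW_mapL,
    RatMap.toKW_mapL, toKW_diamond]
  obtain ⟨a, b, -, hab⟩ := IsFractionRing.div_surjective (A := W (GammaH M H))
    (toKW (GammaH M H) embC f)
  have hW : ∀ g : W (GammaH M H),
      alW M q G x y hdet ((inclMap (hle.trans (up_le M H q))).hom g) =
        (inclMap hle).hom ((scaleMap (scaleLe_up M H q)).hom
          ((transMap (ratNormal_Gamma0 (swapMat_mem M q x y hdet))).hom g)) :=
    fun g => Subtype.ext rfl
  rw [← hab]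
  simp only [map_div₀, RatMap.homK_algebraMap, alK_algebraMap, hW]

/-- The Atkin-Lehner matrix reduces to the class of `q` modulo `M`. -/
theorem gamma0Units_swapMat :
    gamma0Units M ⟨_, swapMat_mem M q x y hdet⟩ = XH.qUnit M q hq hqM :=
  Units.ext (by
    rw [coe_gamma0Units, XH.qUnit, ZMod.coe_unitOfCoprime]
    simp [swapMat])

/-- The unit used to normalise the Atkin-Lehner automorphism. -/
def alUnit : (ZMod (M * q))ˣ :=
  (ZMod.unitsMap_surjective (dvd_mul_right M q) (XH.qUnit M q hq hqM)⁻¹).choose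

/-- `alUnit` reduces to the inverse of the class of `q`. -/
theorem unitsMap_alUnit :
    ZMod.unitsMap (dvd_mul_right M q) (alUnit M q hq hqM) = (XH.qUnit M q hq hqM)⁻¹ :=
  (ZMod.unitsMap_surjective (dvd_mul_right M q) (XH.qUnit M q hq hqM)⁻¹).choose_spec

/-- The Atkin-Lehner automorphism of level `Γ_G(M q)`, extending that of level `Γ_H(M q)`. -/
def alF : FL (GammaH (M * q) G) Qb ≃ₐ[Qb] FL (GammaH (M * q) G) Qb :=
  (diamondHom G embC (alUnit M q hq hqM)).trans (alL M q G x y hdet hq.one_lt embC)

/-- `alF` unfolded. -/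
theorem alF_apply (f : FL (GammaH (M * q) G) Qb) :
    alF M q G x y hdet hq hqM f =
      alL M q G x y hdet hq.one_lt embC (diamondHom G embC (alUnit M q hq hqM) f) := rfl

/-- `alF` sends `α` to `β`. -/
theorem alF_incl_al (f : XH.FH M H) :
    alF M q G x y hdet hq hqM (incl M q H G hle (XH.al M q H f)) =
      incl M q H G hle (XH.be M q H f) := by
  rw [alF_apply, incl_al, diamond_inclFL embC (dvd_mul_right M q), alL_incl M q H G x y hdet hq,
    unitsMap_alUnit, ← diamondHom_gamma0Units, gamma0Units_swapMat M q x y hdet hq hqM,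
    ← AlgEquiv.mul_apply, ← map_mul, mul_inv_cancel, map_one, AlgEquiv.one_apply]

/-- The Atkin-Lehner automorphism carries `j (q z)` back to `j (z)`. -/
theorem alF_incl_bj :
    alF M q G x y hdet hq hqM (incl M q H G hle (XH.bj M q H)) =
      incl M q H G hle (XH.aj M q H) := by
  set Γ := GammaH (M * q) G
  have hle' : Γ ≤ Gamma0 q :=
    (GammaH_le_Gamma0.trans (Fermat.MC.Gamma0_le_of_dvd (M * q) (dvd_mul_left q M)))
  set jq' : W Γ := ⟨Fermat.MC.jN q, W_anti hle' (Fermat.MC.jN_mem_W q)⟩
  have h1 : toKW Γ embC (incl M q H G hle (XH.bj M q H)) = algebraMap (W Γ) (KW Γ) jq' := by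
    refine (qK Γ).injective ?_
    rw [qK_toKW, qK_algebraMap, show (incl M q H G hle (XH.bj M q H) : LaurentSeries Qb) =
      qExpand Qb q (ModularCurve.jqModC Qb) from by
        rw [coe_inclFL, XH.bj, XH.coe_be, XH.coe_jM],
      ModularCurve.coeffMap_qExpand, ModularCurve.coeffMap_jqModC]
    refine Eq.trans ?_ (Fermat.MC.qW_jN q).symm
    rw [← Fermat.MC.Lvl.qExpand_coeffEmb, ← Fermat.BAD.X0.coeffEmb_jq ℂ]
  have h2 : diamondHom G embC (alUnit M q hq hqM) (incl M q H G hle (XH.bj M q H)) =
      incl M q H G hle (XH.bj M q H) := by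
    refine (toKW Γ embC).injective ?_
    change toKW Γ embC (diamond embC (unitLift (alUnit M q hq hqM)) _) = _
    rw [toKW_diamond, h1, RatMap.homK_algebraMap]
    refine congrArg _ (Subtype.ext (funext fun z => ?_))
    exact Fermat.MC.jN_smul q (Fermat.MC.Gamma0_le_of_dvd (M * q) (dvd_mul_left q M)
      (unitLift (alUnit M q hq hqM)).2) z
  refine (toKW Γ embC).injective ?_
  rw [alF_apply, h2, toKW_alL, h1, alK_algebraMap,
    show incl M q H G hle (XH.aj M q H) = jL Γ Qb from by
      rw [XH.aj, incl_al]; exact inclFL_jL Qb _, toKW_jL]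
  refine congrArg _ (Subtype.ext (funext fun z => ?_))
  change Fermat.MC.jA (Fermat.MC.affH (Fermat.MC.posN q) 0
    (swapMat M q x y hdet • Fermat.MC.affH (Fermat.MC.posN q) 0 z)) = Fermat.MC.jA z
  rw [swap_smul, Fermat.MC.jA_smul]

/-- **The automorphism extends the Atkin-Lehner involution of level `Γ_H(M q)`.** -/
theorem alF_incl (f : XH.FU M q H) :
    alF M q G x y hdet hq hqM (incl M q H G hle f) =
      incl M q H G hle (XH.atkin M q H hq hqM f) := by
  refine XH.ringHom_ext M q H hq hqM
    (φ := (alF M q G x y hdet hq hqM).toAlgHom.toRingHom.comp (incl M q H G hle).toRingHom)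
    (ψ := (incl M q H G hle).toRingHom.comp (XH.atkin M q H hq hqM).toAlgHom.toRingHom)
    (fun g => ?_) ?_ f
  · change alF M q G x y hdet hq hqM (incl M q H G hle (XH.al M q H g)) =
      incl M q H G hle (XH.atkin M q H hq hqM (XH.al M q H g))
    rw [alF_incl_al, XH.atkin_al]
  · change alF M q G x y hdet hq hqM (incl M q H G hle (XH.bj M q H)) =
      incl M q H G hle (XH.atkin M q H hq hqM (XH.bj M q H))
    rw [alF_incl_bj, XH.atkin_bj]

/-- `alF` commutes with a Galois element fixing the roots of unity of order `M` up to the diamond of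
its cyclotomic character. -/
theorem alF_smul (σ : Qb ≃ₐ[ℚ] Qb)
    (hχ : ZMod.unitsMap (dvd_mul_right M q) (cycN (M * q) embC σ) = 1)
    (f : FL (GammaH (M * q) G) Qb) :
    alF M q G x y hdet hq hqM (ModularCurve.arithmeticGalois (FQ (GammaH (M * q) G)) σ • f) =
      ModularCurve.arithmeticGalois (FQ (GammaH (M * q) G)) σ •
        alF M q G x y hdet hq hqM (diamondHom G embC (cycN (M * q) embC σ) f) := by
  set s := ModularCurve.arithmeticGalois (FQ (GammaH (M * q) G)) σ
  have hd : ∀ (u : (ZMod (M * q))ˣ) (g : FL (GammaH (M * q) G) Qb),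
      diamondHom G embC u (s • g) = s • diamondHom G embC u g :=
    fun u g => diamond_smul embC (unitLift u) σ g
  rw [alF_apply, alF_apply, smul_alL M q G x y hdet hq.one_lt embC σ hχ, ← hd, ← hd]
  refine congrArg _ ?_
  symm
  rw [← AlgEquiv.mul_apply, ← map_mul, ← AlgEquiv.mul_apply, ← map_mul]
  congr 2
  rw [mul_comm _ (alUnit M q hq hqM), inv_mul_cancel_right]

end Fermat.BAD.XC

end
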