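import Fermat.Agent.BAD.XC.Compat
import Fermat.Agent.BAD.XH.Series
import Fermat.Agent.BAD.Cover.Expansion

/-!
# The two expansions of the field of level `Γ_G(M q)` are scalable

At `∞` the field is generated by `j` and a function with integral expansion; the expansion at the
other cusp is the same one after the Atkin-Lehner automorphism.
-/

set_option autoImplicit false

attribute [local instance 10000] SubalgebraClass.toAlgebra HahnSeries.powerSeriesAlgebra

noncomputable section

open ModularCurve (coeffEmb coeffMap qExpand jq)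

namespace Fermat.BAD.XC

open Fermat.MC.Lvl Fermat.JAC.XH Fermat.RED.Model
open Fermat.JAC.X0 (embC)
open Fermat.MC (xiQ intRange)

local notation "Qb" => AlgebraicClosure ℚ

variable {A : ValuationSubring (AlgebraicClosure ℚ)}

/-- Series with integer coefficients are integral at `A`. -/
theorem coeffEmb_mem_intSeries {r : LaurentSeries ℚ} (h : r ∈ intRange) :
    coeffEmb Qb r ∈ intSeries A := by
  obtain ⟨y, rfl⟩ := h
  refine ⟨coeffMap (Int.castRingHom A) y, ?_⟩
  rw [ModularCurve.coeffEmb, ModularCurve.coeffMap_coeffMap, ModularCurve.coeffMap_coeffMap]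
  exact ModularCurve.coeffMap_congr (RingHom.ext_int _ _) y

/-- The Eisenstein series `gQ` has integer coefficients. -/
theorem gQ_mem_intRange {N : ℕ} (U : Set (ZMod N)) : gQ U ∈ intRange := by
  refine Fermat.MC.mem_intRange.mpr fun k => ?_
  rcases lt_or_ge k 0 with hk | hk
  · exact ⟨0, by rw [gQ, ModularCurve.ofPowerSeries_coeff_of_neg _ hk, Int.cast_zero]⟩
  · lift k to ℕ using hk
    exact ⟨eisCoeff U k, by
      rw [gQ, HahnSeries.ofPowerSeries_apply_coeff, PowerSeries.coeff_mk]; norm_cast⟩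

variable (N : ℕ) [NeZero N] (G : Subgroup (ZMod N)ˣ) [NegMem G]

/-- Generators with integral expansions. -/
theorem exists_int_gens (h1 : 1 < N) :
    ∃ S : Set (FL (GammaH N G) Qb), (∀ x ∈ S, (x : LaurentSeries Qb) ∈ intSeries A) ∧
      IntermediateField.adjoin Qb S = ⊤ := by
  set Γ := GammaH N G
  obtain ⟨t, ht⟩ := exists_separating N G
  set r := gQ (hSet G 1) * xiQ ^ 2 + t • qExpand ℚ N jq
  set z0 : FL Γ Qb := ⟨coeffEmb Qb r, ModularCurve.coeffEmb_mem_laurentBaseChange Qb
    (mem_FQ_of_qW Γ _ (qW_genCand (H := G) h1 t))⟩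
  have hz0 : toKW Γ embC z0 = algebraMap (W Γ) (KW Γ) (genCand G t) := (qK Γ).injective (by
    rw [qK_toKW, qK_algebraMap, qW_genCand h1 t]
    exact Fermat.MC.coeffMap_ι_coeffEmb embC _)
  refine ⟨{jL Γ Qb, z0}, ?_, adjoin_pair_eq_top_of_injective embC hz0 (ht h1)⟩
  have hj : coeffEmb Qb jq ∈ intSeries A := by
    rw [Fermat.BAD.X0.coeffEmb_jq Qb]; exact jqModC_mem_intSeries
  rintro x (rfl | rfl)
  · exact hj
  · change coeffEmb Qb r ∈ intSeries A
    rw [map_add, map_nsmul, map_mul, map_pow]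
    refine add_mem (mul_mem (coeffEmb_mem_intSeries (gQ_mem_intRange _))
      (pow_mem (coeffEmb_mem_intSeries Fermat.MC.xiQ_mem) 2)) (nsmul_mem ?_ t)
    rw [← Fermat.MC.Lvl.qExpand_coeffEmb]
    exact qExpand_mem_intSeries N hj

variable {q : ℕ}

/-- The expansion at `∞` is scalable. -/
theorem scalable_val (h1 : 1 < N) (hq : q.Prime) (hA : A.LiesOverPrime q) :
    Cover.Scalable (IsLocalRing.residue A) (FL (GammaH N G) Qb).val.toRingHom where
  surj := IsLocalRing.residue_surjective
  ι_algebraMap c := rfl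
  attained f hf0 hf := by
    obtain ⟨L₀, hfin, hL⟩ := X0.coeff_mem_of_fixed f
    have := hfin
    exact X0.attained_of_coeff (ι := (FL (GammaH N G) Qb).val.toRingHom) (fun _ => rfl) hq hA hf0
      hf L₀ hL
  denom f := by
    obtain ⟨S, hS, htop⟩ := exists_int_gens N G (A := A) h1
    obtain ⟨P, hP, Q, hQ, hfQ⟩ :=
      IntermediateField.mem_adjoin_iff_div.mp (htop.ge (IntermediateField.mem_top (x := f)))
    obtain ⟨P', hP', Q', hQ', hQ'0, hfQ'⟩ : ∃ P' ∈ Algebra.adjoin Qb S, ∃ Q' ∈ Algebra.adjoin Qb S,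
        Q' ≠ 0 ∧ f * Q' = P' := by
      by_cases hQ0 : Q = 0
      · exact ⟨0, zero_mem _, 1, one_mem _, one_ne_zero, by rw [hfQ, hQ0, div_zero, zero_mul]⟩
      · exact ⟨P, hP, Q, hQ, hQ0, by rw [hfQ, div_mul_cancel₀ _ hQ0]⟩
    obtain ⟨u, a, -, -, h⟩ := X0.denom_of_div (ι := (FL (GammaH N G) Qb).val.toRingHom)
      (fun _ => rfl) hq hA S hS (fun g => X0.coeff_mem_of_fixed g) hP' hQ' hQ'0 hfQ'
    exact ⟨u, a, h⟩

omit N G in
/-- Scalability is preserved by an automorphism. -/
theorem scalable_comp {F : Type*} [Field F] [Algebra Qb F] {k : Type*} [Field k] {π : A →+* k}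
    {ι : F →+* LaurentSeries Qb} (h : Cover.Scalable π ι) (W : F ≃ₐ[Qb] F) :
    Cover.Scalable π (ι.comp W.toAlgHom.toRingHom) := by
  have hred : ∀ g, redF π (ι.comp W.toAlgHom.toRingHom) g = redF π ι (W g) := fun g => by
    by_cases hg : ι (W g) ∈ intSeries A
    · rw [redF_of_mem (f := W g) hg, redF_of_mem (ι := ι.comp W.toAlgHom.toRingHom) (f := g) hg]
      rfl
    · rw [redF, redF, dif_neg hg, dif_neg (show ¬ (ι.comp W.toAlgHom.toRingHom) g ∈ intSeries A
        from hg)]
  refine ⟨h.surj, fun c => by change ι (W _) = _; rw [AlgEquiv.commutes, h.ι_algebraMap],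
    fun f hf hi => ?_, fun f => ?_⟩
  · obtain ⟨a, ha, hr⟩ := h.attained (W f) ((map_ne_zero W).mpr hf) hi
    refine ⟨a, by change ι (W (a • f)) ∈ _; rwa [map_smul], by rwa [hred, map_smul]⟩
  · obtain ⟨u, a, ha, hu, hu0, hfu⟩ := h.denom (W f)
    refine ⟨W.symm u, a, ha, by change ι (W (W.symm u)) ∈ _; rwa [W.apply_symm_apply],
      by rwa [hred, W.apply_symm_apply], ?_⟩
    change ι (W (a • (f * W.symm u))) ∈ _
    rwa [map_smul, map_mul, W.apply_symm_apply]

variable (M q : ℕ) [NeZero M] [NeZero q] (G : Subgroup (ZMod (M * q))ˣ) [NegMem G] [SqOne M q G]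
  (x y : ℤ) (hdet : (q : ℤ) * x - M * y = 1) (hq : q.Prime) (hqM : ¬ q ∣ M)

/-- The two expansions of the field of level `Γ_G(M q)`. -/
def embG (b : Bool) : FL (GammaH (M * q) G) Qb →+* LaurentSeries Qb :=
  if b then (FL (GammaH (M * q) G) Qb).val.toRingHom
  else (FL (GammaH (M * q) G) Qb).val.toRingHom.comp
    (alF M q G x y hdet hq hqM).toAlgHom.toRingHom

/-- The expansion at `∞`. -/
theorem embG_true (f : FL (GammaH (M * q) G) Qb) :
    embG M q G x y hdet hq hqM true f = f := rfl

/-- The other expansion is that of the image under `alF`. -/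
theorem embG_false (f : FL (GammaH (M * q) G) Qb) :
    embG M q G x y hdet hq hqM false f = alF M q G x y hdet hq hqM f := rfl

/-- Both expansions are scalable. -/
theorem scalable_embG (hA : A.LiesOverPrime q) (b : Bool) :
    Cover.Scalable (IsLocalRing.residue A) (embG M q G x y hdet hq hqM b) := by
  have h := scalable_val (M * q) G (A := A) (one_lt_level M q hq.one_lt) hq hA
  cases b
  · exact scalable_comp h _
  · exact h

end Fermat.BAD.XC

end
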