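import Fermat.Agent.BAD.XC.Unram
import Fermat.Agent.BAD.XC.Scal
import Fermat.Agent.BAD.XH.Degen
import Fermat.Agent.BAD.Cover.Sym

/-!
# `(⟨u⟩ - 1) (σ - 1) (σ - ⟨u₀⟩) = 0` on torsion at level `Γ_G(M q)`

`X_G(M q) → X_H(M q)` is a cyclic unramified cover with group generated by `⟨u₀⟩`, and an element
of inertia acting on the roots of unity of order `M q` as `u₀` fixes the reduction at `∞` and acts
as `⟨u₀⟩` on the reduction at the other cusp.
-/

set_option autoImplicit false

attribute [local instance 10000] SubalgebraClass.toAlgebra HahnSeries.powerSeriesAlgebra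

noncomputable section

open AlgebraicCurve
open ModularCurve (coeffMap arithmeticGalois)

namespace Fermat.BAD.XC

open Fermat.FF Fermat.MC.Lvl Fermat.JAC Fermat.JAC.XH Fermat.RED.Model Fermat.BAD Fermat.RED
open Fermat.JAC.X0 (embC)

local notation "Qb" => AlgebraicClosure ℚ

section Generic

variable {A : ValuationSubring (AlgebraicClosure ℚ)} {F : Type*} [Field F] [Algebra Qb F]

/-- Roots of unity of order prime to the residue characteristic are separated by reduction. -/
theorem eq_one_of_residue {z : A} {d : ℕ} (hd : (d : IsLocalRing.ResidueField A) ≠ 0)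
    (hz : z ^ d = 1) (h1 : IsLocalRing.residue A z = 1) : z = 1 := by
  by_contra hne
  refine hd ?_
  have h := geom_sum_mul z d
  rw [hz, sub_self] at h
  have h0 := congrArg (IsLocalRing.residue A)
    ((mul_eq_zero.mp h).resolve_right (sub_ne_zero.mpr hne))
  simpa [map_sum, map_pow, h1] using h0

/-- An element of inertia does not change reductions. -/
theorem gRed_smul_series {ι : F →+* LaurentSeries Qb} (s : SemilinearAut Qb F) (T : F ≃+* F)
    {σ : Qb ≃ₐ[ℚ] Qb} (hσ : σ ∈ A.inertiaSubgroupIn ℚ)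
    (h : ∀ f, ι (s • f) = coeffMap (σ : Qb →+* Qb) (ι (T f))) {f : F}
    (hf : T f ∈ gInt (IsLocalRing.residue A) ι) :
    s • f ∈ gInt (IsLocalRing.residue A) ι ∧
      gRed (IsLocalRing.residue A) ι (s • f) = gRed (IsLocalRing.residue A) ι (T f) := by
  obtain ⟨hdec, hres⟩ := residueAut_eq_refl hσ
  have key : ∀ {z : F}, ι z ∈ intSeries A → ι (s • T.symm z) ∈ intSeries A ∧
      redF (IsLocalRing.residue A) ι (s • T.symm z) = redF (IsLocalRing.residue A) ι z := by
    intro z hz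
    obtain ⟨hi, hred⟩ := X0.redF_of_coeffMap_conj hdec ι
      (show ι (s • T.symm z) = coeffMap (σ : Qb →+* Qb) (ι z) by rw [h, T.apply_symm_apply]) hz
    refine ⟨hi, hred.trans ?_⟩
    rw [hres]
    exact ModularCurve.coeffMap_id _
  obtain ⟨g, u, hgu⟩ := id hf
  obtain ⟨hg, hu, hu0, e⟩ := id hgu
  obtain ⟨hg1, hg2⟩ := key hg
  obtain ⟨hu1, hu2⟩ := key hu
  have hq' : IsGQuot (IsLocalRing.residue A) ι (s • f) (s • T.symm g) (s • T.symm u) :=
    ⟨hg1, hu1, hu2.symm ▸ hu0, by
      rw [← smul_mul', ← e, map_mul, T.symm_apply_apply]⟩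
  exact ⟨hq'.mem, by rw [hq'.gRed_eq, hgu.gRed_eq, hg2, hu2]⟩

end Generic

variable (M q : ℕ) [NeZero M] [NeZero q] [Fact q.Prime] (H : Subgroup (ZMod M)ˣ) [NegMem H]
  (G : Subgroup (ZMod (M * q))ˣ) [NegMem G] [SqOne M q G]
  (x y : ℤ) (hdet : (q : ℤ) * x - M * y = 1) (hq : q.Prime) (hqM : ¬ q ∣ M)

variable {A : ValuationSubring (AlgebraicClosure ℚ)} (hA : A.LiesOverPrime q)
  [IsAlgClosed (IsLocalRing.ResidueField A)] [CharP (IsLocalRing.ResidueField A) q]
  [FF.IsFunctionField (IsLocalRing.ResidueField A) (XH.KH M H A)]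

local notation "kA" => IsLocalRing.ResidueField A

variable (hν2 : nuTwoG (GammaH M H) = 0) (hν3 : nuThreeG (GammaH M H) = 0)
variable (u₀ : (ZMod (M * q))ˣ) (hgen : upH M H q = G ⊔ Subgroup.zpowers u₀)

include hgen in
omit [Fact (Nat.Prime q)] [SqOne M q G] in
/-- `Γ_G(M q)` is contained in `Γ_H(M q)`. -/
theorem level_le : GammaH (M * q) G ≤ GammaH (M * q) (upH M H q) :=
  GammaH_mono (le_sup u₀ hgen)

include hq hqM hA in
/-- There is a glued point. -/
theorem S_nonempty : (XH.degen M q H hq hqM hA hν2 hν3).S.Nonempty := by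
  rw [XH.degen_S, Finset.nonempty_iff_ne_empty]
  intro h0
  obtain ⟨hdeg, hsub⟩ := XH.degree_zeroDiv_hbar M q H hq hqM hA
  have hz : zeroDiv kA (XH.hbar M q H hq hqM hA) = 0 := by
    refine Finsupp.ext fun v => ?_
    rw [zeroDiv_apply, Finsupp.zero_apply]
    refine max_eq_right (le_of_not_gt fun hv => ?_)
    have := hsub v hv
    rw [h0] at this
    exact absurd this (Finset.notMem_empty v)
  rw [hz, map_zero] at hdeg
  have h1 : 0 < (q - 1) * psiG (GammaH M H) :=
    Nat.mul_pos (Nat.sub_pos_of_lt hq.one_lt) (psiG_pos _)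
  omega

variable {σ : Qb ≃ₐ[ℚ] Qb}

omit [Fact (Nat.Prime q)] [SqOne M q G] in
/-- The Galois action is semilinear. -/
theorem galois_scalar (σ : Qb ≃ₐ[ℚ] Qb) (c : Qb) (f : FL (GammaH (M * q) G) Qb) :
    arithmeticGalois (FQ (GammaH (M * q) G)) σ • (c • f) =
      σ c • (arithmeticGalois (FQ (GammaH (M * q) G)) σ • f) := by
  rw [Algebra.smul_def, Algebra.smul_def, smul_mul', SemilinearAut.smul_algebraMap]
  rfl

include hq hqM hA hν2 hν3 hgen in
/-- Inertia with cyclotomic value `u₀` gives the cover of `X_G` as data over the degeneration. -/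
theorem exists_data
    (hpar : ∀ u ∈ upH M H q, ((u : ZMod (M * q)) - 1) ^ 2 = 0 → u ∈ G)
    (hd : (deg G (upH M H q) : kA) ≠ 0)
    (hu₀M : ZMod.unitsMap (dvd_mul_right M q) u₀ = 1)
    (hσ : σ ∈ A.inertiaSubgroupIn ℚ) (hcyc : cycN (M * q) embC σ = u₀) :
    ∃ D : Cover.Data (XH.degen M q H hq hqM hA hν2 hν3) (FL (GammaH (M * q) G) Qb),
      D.C.φ = incl M q H G (level_le M q H G u₀ hgen) ∧
      D.ι = embG M q G x y hdet hq hqM := by
  set hle := level_le M q H G u₀ hgen
  obtain ⟨C, hCφ, hCd, hCδ⟩ := exists_cyclic u₀ hgen hle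
  set s := arithmeticGalois (FQ (GammaH (M * q) G)) σ with hsdef
  set π := IsLocalRing.residue A
  set ι := embG M q G x y hdet hq hqM
  set X := XH.degen M q H hq hqM hA hν2 hν3
  have hscal := scalable_embG M q G x y hdet hq hqM hA
  obtain ⟨hn2, hn3⟩ := XH.nuG_zero_mono (up_le M H q) hν2 hν3
  have hdk : (C.d : kA) ≠ 0 := by rw [hCd]; exact hd
  have hsφ : ∀ h, s • C.φ h = C.φ (XH.galAut M q H σ • h) := fun h => by
    rw [hCφ]; exact inclFL_smul Qb hle σ h
  -- every field but the twist is immediate from the covering and the embedding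
  refine ⟨{
    C := C
    d_ne_res := hdk
    unram := fun w => by
      rw [hCφ]
      exact ramificationIndexAlong_eq_one (le_sup u₀ hgen) hn2 hn3 hpar w
    ι := ι
    scal := hscal
    comp := fun b h => by
      rw [hCφ]
      cases b
      · rw [embG_false, alF_incl M q H G x y hdet hq hqM hle, coe_inclFL, XH.emb_false]
      · rw [embG_true, coe_inclFL]; rfl
    hW := ⟨(alF M q G x y hdet hq hqM).toRingEquiv, fun f => rfl⟩
    S_ne := S_nonempty M q H hq hqM hA hν2 hν3
    twist := ?_ }, hCφ, rfl⟩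
  intro i hi0 hid
  set z := C.ζ ^ i
  have hzd : z ^ C.d = 1 := by
    simp only [z, ← pow_mul, Nat.mul_comm i, pow_mul C.ζ C.d i, C.hζ.pow_eq_one, one_pow]
  have hzA : z ∈ A := mem_of_pow_eq_one C.d_ne_zero hzd
  obtain ⟨hdec, hres⟩ := residueAut_eq_refl hσ
  obtain ⟨σA, h1, h2⟩ := exists_residue_conj hdec
  have hz1 : IsLocalRing.residue A ⟨z, hzA⟩ ≠ 1 := fun h => by
    have := congrArg Subtype.val (eq_one_of_residue hdk (Subtype.ext hzd) h)
    exact C.hζ.pow_ne_one_of_pos_of_lt hi0.ne' hid this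
  -- Inertia fixes the roots of unity of order prime to `q`.
  have hσz : σ z = z := by
    have hw : σ z * z⁻¹ ∈ A :=
      mul_mem (mem_of_pow_eq_one C.d_ne_zero (by rw [← map_pow, hzd, map_one]))
      (mem_of_pow_eq_one C.d_ne_zero (by rw [inv_pow, hzd, inv_one]))
    have hzi : z⁻¹ ∈ A := mem_of_pow_eq_one C.d_ne_zero (by rw [inv_pow, hzd, inv_one])
    have hz0 : z ≠ 0 := pow_ne_zero _ (C.hζ.ne_zero C.d_ne_zero)
    have h := eq_one_of_residue (z := ⟨σ z * z⁻¹, hw⟩) hdk
      (Subtype.ext (by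
        change (σ z * z⁻¹) ^ C.d = 1
        rw [mul_pow, ← map_pow, inv_pow, hzd, map_one, inv_one, mul_one]))
      (by
        rw [show (⟨σ z * z⁻¹, hw⟩ : A) = σA ⟨z, hzA⟩ * ⟨z⁻¹, hzi⟩ from
          Subtype.ext (by change σ z * z⁻¹ = _; rw [MulMemClass.coe_mul, h1]), map_mul, h2, hres,
          RingEquiv.refl_apply, ← map_mul,
          show (⟨z, hzA⟩ : A) * ⟨z⁻¹, hzi⟩ = 1 from Subtype.ext (mul_inv_cancel₀ hz0), map_one])
    exact mul_inv_eq_one₀ hz0 |>.mp (congrArg Subtype.val h)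
  refine ⟨π ⟨z, hzA⟩, hz1, fun m h hint hrr => ?_⟩
  -- `f` spans an eigenline, and so does `s • f`; its reductions are those of `f` and `z • f`.
  set f := C.line i h
  have hδf : gen G u₀ f = z • f := by rw [← hCδ]; exact C.δ_line i h
  have hδs : gen G u₀ (s • f) = z • (s • f) := by
    rw [show gen G u₀ (s • f) = s • gen G u₀ f from diamond_smul embC (unitLift u₀) σ f, hδf,
      galois_scalar, hσz]
  obtain ⟨h', hh'⟩ := C.exists_eq_line hid (f := s • f) (by rw [hCδ]; exact hδs)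
  have hT : gRed π (ι true) (s • f) = gRed π (ι true) f ∧ s • f ∈ gInt π (ι true) := by
    have := gRed_smul_series (ι := ι true) s (RingEquiv.refl _) hσ
      (fun g => ModularCurve.coe_arithmeticGalois_smul _ σ g) (f := f) (hint true)
    exact ⟨this.2, this.1⟩
  have hF : gRed π (ι false) (s • f) = gRed π (ι false) (z • f) ∧ s • f ∈ gInt π (ι false) := by
    have := gRed_smul_series (ι := ι false) s (gen G u₀).toRingEquiv hσ
      (fun g => by
        change (alF M q G x y hdet hq hqM (s • g) : LaurentSeries Qb) = _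
        rw [hsdef, alF_smul M q G x y hdet hq hqM σ (hcyc.symm ▸ hu₀M), hcyc,
          ModularCurve.coe_arithmeticGalois_smul]
        rfl) (f := f) (by
          change gen G u₀ f ∈ _
          rw [hδf]; exact (hscal false).int_smul hzA (hint false))
    refine ⟨this.2.trans ?_, this.1⟩
    rw [← hδf]; rfl
  refine ⟨h', fun b => ?_, ?_, ?_, ?_⟩
  · rw [← hh']; cases b
    exacts [hF.2, hT.2]
  · rw [← hh']
    have e : s • pullDiv C.φ (m • X.A0) = pullDiv C.φ (m • X.A0) := by
      have e1 := Fermat.GR.Corr.pullbackAlong_smul (g := XH.galAut M q H σ) (g' := s) C.φ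
        (isIntegral_toRingHom C.φ) (fun h => hsφ h) (m • X.A0)
      have hA0 : XH.galAut M q H σ • X.A0 = X.A0 := XH.galAut_A0 M q H σ
      rw [smul_comm, hA0] at e1
      exact e1.symm
    exact e ▸ FF.smul_mem_riemannRochSpace s hrr
  · rw [← hh']; exact hT.1
  · rw [← hh', hF.1]
    exact (hscal false).red_smul ⟨z, hzA⟩ (hint false)

include hq hqM hA hν2 hν3 hgen x y hdet in
/-- **`diamond_inertia` at level `Γ_G(M q)`.** -/
theorem diamond_inertia_level
    (hpar : ∀ u ∈ upH M H q, ((u : ZMod (M * q)) - 1) ^ 2 = 0 → u ∈ G)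
    (hd : (deg G (upH M H q) : kA) ≠ 0)
    (hu₀M : ZMod.unitsMap (dvd_mul_right M q) u₀ = 1)
    {σ₀ : Qb ≃ₐ[ℚ] Qb} (hσ₀ : σ₀ ∈ A.inertiaSubgroupIn ℚ) (hcyc₀ : cycN (M * q) embC σ₀ = u₀)
    (hσ : σ ∈ A.inertiaSubgroupIn ℚ) {v : (ZMod (M * q))ˣ}
    (hcyc : cycN (M * q) embC σ = v) (hvM : ZMod.unitsMap (dvd_mul_right M q) v = 1)
    {u : (ZMod (M * q))ˣ} (hu : u ∈ upH M H q) {n : ℕ} (hn : (n : kA) ≠ 0)
    {P : Pic0 Qb (FL (GammaH (M * q) G) Qb)} (hP : n • P = 0) :
    let Θ := arithmeticGalois (FQ (GammaH (M * q) G)) σ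
    let C := SemilinearAut.ofAlgAut (diamondHom G embC v)
    let Δ := SemilinearAut.ofAlgAut (diamondHom G embC u)
    Δ • (Θ • (Θ • P - C • P) - (Θ • P - C • P)) -
      (Θ • (Θ • P - C • P) - (Θ • P - C • P)) = 0 := by
  intro Θ C Δ
  obtain ⟨D, hφ, hι⟩ := exists_data M q H G x y hdet hq hqM hA hν2 hν3 u₀ hgen hpar
    hd hu₀M hσ₀ hcyc₀
  set hle := level_le M q H G u₀ hgen
  have hv : v ∈ upH M H q := Subgroup.mem_comap.mpr (hvM ▸ one_mem H)
  obtain ⟨hdec, hres⟩ := residueAut_eq_refl hσ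
  have hfix : ∀ v ∈ upH M H q, ∀ h, SemilinearAut.ofAlgAut (diamondHom G embC v) • D.C.φ h =
      D.C.φ ((Cover.idSym (XH.degen M q H hq hqM hA hν2 hν3)).s • h) := fun v hv h => by
    rw [hφ]
    change diamondHom G embC v (incl M q H G hle h) = incl M q H G hle ((1 : SemilinearAut _ _) • h)
    rw [one_smul, diamond_inclFL embC dvd_rfl hle, ZMod.unitsMap_self,
      diamondHom_eq_one embC (show MonoidHom.id _ v ∈ upH M H q from hv), AlgEquiv.one_apply]
  have hΘ' : ∀ h, Θ • D.C.φ h = D.C.φ ((XH.galSym M q H hq hqM hA hν2 hν3 hdec).s • h) :=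
      fun h => by
    rw [XH.galSym_s, hφ]
    exact inclFL_smul Qb hle σ h
  have hbase : (XH.galSym M q H hq hqM hA hν2 hν3 hdec).base = 1 := by
    rw [XH.galSym_base, hres]; rfl
  -- `Θ` is trivial at `∞` and equal to `C` at the other component, `Δ` fixes the glued points.
  refine Fermat.BAD.Degen.diamond_inertia (D.sym Θ _ hΘ')
    (D.sym C (Cover.idSym (XH.degen M q H hq hqM hA hν2 hν3)) (hfix v hv))
    (D.sym Δ (Cover.idSym (XH.degen M q H hq hqM hA hν2 hν3)) (hfix u hu)) ?_ ?_ ?_ ?_ ?_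
      (fun a => rfl) ?_ hn hP
  · rw [Cover.Data.sym_e, XH.galSym_e]
  · refine D.sym_τ_eq_one _ _ hΘ' hbase rfl fun f hf => ?_
    rw [hι] at hf ⊢
    exact (gRed_smul_series (ι := embG M q G x y hdet hq hqM true) Θ (RingEquiv.refl _) hσ
      (fun g => ModularCurve.coe_arithmeticGalois_smul _ σ g) (f := f) hf).2
  · rfl
  · refine (D.sym_τ_congr hΘ' (hfix v hv) hbase rfl fun f hf => ?_).symm
    change gRed _ (D.ι false) (Θ • f) = gRed _ (D.ι false) (C • f)
    have hCf : C • f ∈ gInt _ (D.ι false) :=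
      D.smul_int C (Cover.idSym (XH.degen M q H hq hqM hA hν2 hν3)) (hfix v hv) (b := false) hf
    rw [hι] at hf hCf ⊢
    exact (gRed_smul_series (ι := embG M q G x y hdet hq hqM false) Θ
      (diamondHom G embC v).toRingEquiv hσ (fun g => by
        change (alF M q G x y hdet hq hqM (Θ • g) : LaurentSeries Qb) = _
        rw [alF_smul M q G x y hdet hq hqM σ (hcyc.symm ▸ hvM), hcyc,
          ModularCurve.coe_arithmeticGalois_smul]
        rfl) (f := f) hCf).2
  · rfl
  · intro w hw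
    exact D.sym_pt Δ (Cover.idSym (XH.degen M q H hq hqM hA hν2 hν3)) (hfix u hu) rfl (fun t _ =>
      one_smul _ t) hw

end Fermat.BAD.XC

end
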