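import Fermat.Agent.BAD.XC.Series
import Fermat.Agent.JAC.XH.DiaCompat

/-!
# The Atkin-Lehner automorphism of the field of level `Γ_G(M q)` and the Galois action

`alL` is the automorphism over `L`, and `smul_alL` gives its conjugate by a Galois element fixing
the roots of unity of order `M`.
-/

set_option autoImplicit false

attribute [local instance 10000] SubalgebraClass.toAlgebra HahnSeries.powerSeriesAlgebra

noncomputable section

open IntermediateField
open ModularCurve (coeffEmb coeffMap qExpand jq arithmeticGalois coe_arithmeticGalois_smul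
  coeffEmb_mem_laurentBaseChange)
open scoped MatrixGroups

namespace Fermat.BAD.XC

open Fermat.MC.Lvl Fermat.JAC.XH
open Fermat.MC (xiQ)

/-- A series over `L` that becomes a series in `q ^ M` over `ℂ` is already one over `L`. -/
theorem exists_descend {L : Type*} [Field L] (ι : L →+* ℂ) (M : ℕ) [NeZero M]
    {Q : LaurentSeries ℂ} {R : LaurentSeries L} (h : qExpand ℂ M Q = coeffMap ι R) :
    ∃ r : LaurentSeries L, coeffMap ι r = Q := by
  have hrange : ∀ n : ℤ, ∃ c : L, ι c = Q.coeff n := fun n =>
    ⟨R.coeff ((M : ℤ) * n), by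
      rw [← ModularCurve.coeffMap_coeff, ← h, ModularCurve.qExpand_coeff_mul]⟩
  have h0 : Function.invFun ι (0 : ℂ) = 0 := by
    have := Function.leftInverse_invFun ι.injective 0
    rwa [map_zero] at this
  let φ : ZeroHom ℂ L := ⟨Function.invFun ι, h0⟩
  refine ⟨Q.map φ, ?_⟩
  ext n
  rw [ModularCurve.coeffMap_coeff]
  obtain ⟨c, hc⟩ := hrange n
  change ι (Function.invFun ι (Q.coeff n)) = _
  rw [← hc, Function.leftInverse_invFun ι.injective c]

variable (M q : ℕ) [NeZero M] [NeZero q] (G : Subgroup (ZMod (M * q))ˣ) [NegMem G] [SqOne M q G]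
  (x y : ℤ) (hdet : (q : ℤ) * x - M * y = 1) (hq1 : 1 < q)
  {L : Type*} [Field L] [Algebra ℚ L] (ι : L →+* ℂ) [HasZeta (M * q) ι]

include hq1 in
omit [NeZero q] in
/-- The level `M q` exceeds one. -/
theorem one_lt_level : 1 < M * q := by
  have := NeZero.pos M
  nlinarith

include hq1 in
/-- The Atkin-Lehner substitution preserves the functions with expansion defined over `L`. -/
theorem alK_toKW_mem (z : FL (GammaH (M * q) G) L) :
    qK (GammaH (M * q) G) (alK M q G x y hdet (toKW (GammaH (M * q) G) ι z)) ∈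
      ((coeffMap ι).comp (FL (GammaH (M * q) G) L).val.toRingHom).fieldRange := by
  set Γ := GammaH (M * q) G
  set R := ((coeffMap ι).comp (FL Γ L).val.toRingHom).fieldRange
  obtain ⟨t, ht⟩ := exists_separating (M * q) G
  have h1 := one_lt_level M q hq1
  have hj : qK Γ (alK M q G x y hdet (toKW Γ ι (jL Γ L))) ∈ R := by
    rw [toKW_jL, alK_algebraMap, qK_algebraMap, qW_alW_jW]
    exact ⟨⟨coeffEmb L (qExpand ℚ q jq), coeffEmb_mem_laurentBaseChange L
      (mem_FQ_of_qW Γ _ (qW_alW_jW M q G x y hdet))⟩, Fermat.MC.coeffMap_ι_coeffEmb ι _⟩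
  have hgen : qW Γ (alW M q G x y hdet (genCand G t)) ∈ R := by
    have h := qExpand_qW_alW_gWt M q G x y hdet ι t 1
    obtain ⟨r, hr⟩ := exists_descend ι M h
    exact ⟨⟨r, mem_FL_of_qW ι _ _ hr.symm⟩, hr⟩
  have hz0 : toKW Γ ι ⟨_, coeffEmb_mem_laurentBaseChange L
      (mem_FQ_of_qW Γ _ (qW_genCand (H := G) h1 t))⟩ =
      algebraMap (W Γ) (KW Γ) (genCand G t) := (qK Γ).injective (by
    rw [qK_toKW, qK_algebraMap, qW_genCand h1 t]
    exact Fermat.MC.coeffMap_ι_coeffEmb ι _)
  refine IntermediateField.adjoin_induction L (fun y' hy => ?_) (fun c => ?_)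
    (fun _ _ _ _ h h' => ?_) (fun _ _ h => ?_) (fun _ _ _ _ h h' => ?_)
    ((adjoin_pair_eq_top_of_injective ι hz0 (ht h1)).ge (mem_top (x := z)))
  · rcases hy with rfl | rfl
    · exact hj
    · rw [hz0, alK_algebraMap, qK_algebraMap]; exact hgen
  · refine ⟨algebraMap L (FL Γ L) c, ?_⟩
    rw [toKW_algebraMap, alK_algebraMap, qK_algebraMap, AlgHom.commutes, AlgHom.commutes]
    exact Fermat.MC.coeffMap_ι_algebraMap ι c
  · rw [map_add, map_add, map_add]; exact add_mem h h'
  · rw [map_inv₀, map_inv₀, map_inv₀]; exact inv_mem h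
  · rw [map_mul, map_mul, map_mul]; exact mul_mem h h'

/-- The image of a function. -/
def alLFun (z : FL (GammaH (M * q) G) L) : FL (GammaH (M * q) G) L :=
  (alK_toKW_mem M q G x y hdet hq1 ι z).choose

/-- `alLFun` is the substitution on meromorphic functions. -/
theorem toKW_alLFun (z : FL (GammaH (M * q) G) L) :
    toKW (GammaH (M * q) G) ι (alLFun M q G x y hdet hq1 ι z) =
      alK M q G x y hdet (toKW (GammaH (M * q) G) ι z) :=
  (qK (GammaH (M * q) G)).injective (by
    rw [qK_toKW]
    exact (alK_toKW_mem M q G x y hdet hq1 ι z).choose_spec)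

/-- The substitution as a homomorphism of function fields. -/
def alHom : FL (GammaH (M * q) G) L →ₐ[L] FL (GammaH (M * q) G) L where
  toFun := alLFun M q G x y hdet hq1 ι
  map_one' := (toKW (GammaH (M * q) G) ι).injective (by rw [toKW_alLFun, map_one, map_one])
  map_mul' a b := (toKW (GammaH (M * q) G) ι).injective (by
    rw [map_mul, toKW_alLFun, toKW_alLFun, toKW_alLFun, map_mul, map_mul])
  map_zero' := (toKW (GammaH (M * q) G) ι).injective (by rw [toKW_alLFun, map_zero, map_zero])
  map_add' a b := (toKW (GammaH (M * q) G) ι).injective (by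
    rw [map_add, toKW_alLFun, toKW_alLFun, toKW_alLFun, map_add, map_add])
  commutes' c := (toKW (GammaH (M * q) G) ι).injective (by
    rw [toKW_alLFun, toKW_algebraMap, alK_algebraMap, AlgHom.commutes])

/-- `alHom` is the substitution on meromorphic functions. -/
theorem toKW_alHom (z : FL (GammaH (M * q) G) L) :
    toKW (GammaH (M * q) G) ι (alHom M q G x y hdet hq1 ι z) =
      alK M q G x y hdet (toKW (GammaH (M * q) G) ι z) :=
  toKW_alLFun M q G x y hdet hq1 ι z

/-- The substitution squares to a diamond. -/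
theorem alHom_alHom (z : FL (GammaH (M * q) G) L) :
    alHom M q G x y hdet hq1 ι (alHom M q G x y hdet hq1 ι z) =
      diamond ι ⟨alSq M q x y hdet, alSq_mem M q x y hdet⟩ z :=
  (toKW (GammaH (M * q) G) ι).injective (by
    rw [toKW_alHom, toKW_alHom, alK_alK, toKW_diamond])

/-- The substitution is bijective. -/
theorem alHom_bijective : Function.Bijective (alHom M q G x y hdet hq1 ι) := by
  refine ⟨(alHom M q G x y hdet hq1 ι).injective, fun z => ?_⟩
  obtain ⟨w, hw⟩ := (diamond ι ⟨alSq M q x y hdet, alSq_mem M q x y hdet⟩ :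
    FL (GammaH (M * q) G) L ≃ₐ[L] _).surjective z
  exact ⟨alHom M q G x y hdet hq1 ι w, by rw [alHom_alHom, hw]⟩

/-- The Atkin-Lehner automorphism at `q` of the function field at level `G`, over `L`. -/
def alL : FL (GammaH (M * q) G) L ≃ₐ[L] FL (GammaH (M * q) G) L :=
  AlgEquiv.ofBijective (alHom M q G x y hdet hq1 ι) (alHom_bijective M q G x y hdet hq1 ι)

/-- `alL` is the substitution on meromorphic functions. -/
theorem toKW_alL (z : FL (GammaH (M * q) G) L) :
    toKW (GammaH (M * q) G) ι (alL M q G x y hdet hq1 ι z) =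
      alK M q G x y hdet (toKW (GammaH (M * q) G) ι z) :=
  toKW_alHom M q G x y hdet hq1 ι z

/-- The expansion of `alL z` read off from that of the substituted function at `M z`. -/
theorem qExpand_coe_alL {z : FL (GammaH (M * q) G) L} {f : W (GammaH (M * q) G)}
    {R : LaurentSeries L}
    (hz : toKW (GammaH (M * q) G) ι z = algebraMap _ (KW (GammaH (M * q) G)) f)
    (hR : qExpand ℂ M (qW (GammaH (M * q) G) (alW M q G x y hdet f)) = coeffMap ι R) :
    qExpand L M (alL M q G x y hdet hq1 ι z : LaurentSeries L) = R :=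
  (coeffMap ι).injective (by
    rw [← hR, ModularCurve.coeffMap_qExpand]
    congr 1
    rw [← qK_toKW (GammaH (M * q) G) ι, toKW_alL, hz, alK_algebraMap, qK_algebraMap])

/-- `alL` sends `j (z)` to `j (q z)`. -/
theorem coe_alL_jL :
    (alL M q G x y hdet hq1 ι (jL (GammaH (M * q) G) L) : LaurentSeries L) =
      coeffEmb L (qExpand ℚ q jq) :=
  (coeffMap ι).injective (by
    rw [← qK_toKW (GammaH (M * q) G) ι, toKW_alL, toKW_jL, alK_algebraMap, qK_algebraMap,
      qW_alW_jW, Fermat.MC.coeffMap_ι_coeffEmb])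

/-- **The Galois action on the Atkin-Lehner automorphism**, for the elements fixing the roots of
unity of order `M`. -/
theorem smul_alL (σ : L ≃ₐ[ℚ] L)
    (hχ : ZMod.unitsMap (dvd_mul_right M q) (cycN (M * q) ι σ) = 1)
    (z : FL (GammaH (M * q) G) L) :
    arithmeticGalois (FQ (GammaH (M * q) G)) σ • alL M q G x y hdet hq1 ι z =
      alL M q G x y hdet hq1 ι (diamondHom G ι (cycN (M * q) ι σ)⁻¹
        (arithmeticGalois (FQ (GammaH (M * q) G)) σ • z)) := by
  have : CharZero L := charZero_of_injective_algebraMap (algebraMap ℚ L).injective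
  set Γ := GammaH (M * q) G
  -- the field is generated by `j` and a separating series
  obtain ⟨t, ht⟩ := exists_separating (M * q) G
  have h1 := one_lt_level M q hq1
  set r := gQ (hSet G 1) * xiQ ^ 2 + t • qExpand ℚ (M * q) jq
  set z0 : FL Γ L := ⟨coeffEmb L r, coeffEmb_mem_laurentBaseChange L
    (mem_FQ_of_qW Γ _ (qW_genCand (H := G) h1 t))⟩
  have hz0 : toKW Γ ι z0 = algebraMap (W Γ) (KW Γ) (genCand G t) := (qK Γ).injective (by
    rw [qK_toKW, qK_algebraMap, qW_genCand h1 t]
    exact Fermat.MC.coeffMap_ι_coeffEmb ι _)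
  set χ := cycN (M * q) ι σ
  refine IntermediateField.adjoin_induction L
    (p := fun w _ => arithmeticGalois (FQ Γ) σ • alL M q G x y hdet hq1 ι w =
      alL M q G x y hdet hq1 ι (diamondHom G ι χ⁻¹ (arithmeticGalois (FQ Γ) σ • w)))
    (fun w hw => ?_) (fun c => ?_) (fun a b _ _ ha hb => ?_) (fun a _ ha => ?_)
    (fun a b _ _ ha hb => ?_)
    ((adjoin_pair_eq_top_of_injective ι hz0 (ht h1)).ge (mem_top (x := z)))
  -- compare expansions on the two generators
  · rcases hw with rfl | rfl
    · rw [show arithmeticGalois (FQ Γ) σ • jL Γ L = jL Γ L from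
        Subtype.ext (ModularCurve.coeffMap_coeffEmb σ jq), diamondHom_jL]
      exact Subtype.ext (by
        rw [coe_arithmeticGalois_smul, coe_alL_jL, ModularCurve.coeffMap_coeffEmb])
    · rw [show arithmeticGalois (FQ Γ) σ • z0 = z0 from
        Subtype.ext (ModularCurve.coeffMap_coeffEmb σ r)]
      have e1 := qExpand_coe_alL M q G x y hdet hq1 ι hz0 (f := genCand G t)
        (qExpand_qW_alW_gWt M q G x y hdet ι t 1)
      have e2 := qExpand_coe_alL M q G x y hdet hq1 ι
        (toKW_diamondHom_genCand (M * q) ι G t χ⁻¹ z0 hz0)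
        (qExpand_qW_alW_gWt M q G x y hdet ι t _)
      refine Subtype.ext ((qExpand L M).injective ?_)
      rw [coe_arithmeticGalois_smul, ← ModularCurve.coeffMap_qExpand, e1, e2]
      exact coeffMap_alSeries M q G x y hdet (zetaL_pow (M * q) ι) t σ
        (cycN_spec (M * q) ι σ) hχ
  · rw [AlgEquiv.commutes, AlgebraicCurve.SemilinearAut.smul_algebraMap, AlgEquiv.commutes,
      AlgEquiv.commutes]
  · simp only [map_add, smul_add, ha, hb]
  · simp only [map_inv₀, smul_inv'', ha]
  · simp only [map_mul, smul_mul', ha, hb]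

end Fermat.BAD.XC

end
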