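import Fermat.Agent.BAD.XC.Compat
import Fermat.Agent.BAD.Cover.Lines
import Fermat.Agent.MC.Lvl.CuspGenus
import Mathlib.FieldTheory.Galois.Basic
import Mathlib.RingTheory.RootsOfUnity.AlgebraicallyClosed
import Mathlib.LinearAlgebra.LinearIndependent.Defs

/-!
# `X_G(N) → X_{G'}(N)` as a cyclic cover

When `G' = G ⊔ ⟨u₀⟩` the diamond of `u₀` generates the group of the cover, and an eigenvector of it
is a Kummer generator.
-/

set_option autoImplicit false
set_option linter.unusedSectionVars false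

attribute [local instance 10000] SubalgebraClass.toAlgebra HahnSeries.powerSeriesAlgebra

noncomputable section

open AlgebraicCurve
open scoped MatrixGroups

namespace Fermat.BAD.XC

open Fermat.MC.Lvl Fermat.JAC.XH
open Fermat.JAC.X0 (embC)

local notation "Qb" => AlgebraicClosure ℚ

/-- The degree of an inclusion of levels times the smaller index is the larger index. -/
theorem finrankAlong_inclFL {Γ Γ' : Subgroup SL(2, ℤ)} [LevelGen Γ] [LevelGen Γ'] (h : Γ' ≤ Γ) :
    finrankAlong Qb (inclFL Qb h) * psiG Γ = psiG Γ' := by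
  have h1 := Fermat.JAC.degree_zeroDiv_map (inclFL Qb h) (jL Γ Qb)
  rw [inclFL_jL, Fermat.FF.degree_zeroDiv (transcendental_jL _),
    Fermat.FF.degree_zeroDiv (transcendental_jL _), (finrank_FL _ embC).1,
    (finrank_FL _ embC).1] at h1
  exact (by exact_mod_cast h1 : psiG Γ' = finrankAlong Qb (inclFL Qb h) * psiG Γ).symm

/-- An automorphism of order `d` has eigenvectors for the primitive `d`-th roots of unity. -/
theorem exists_eigen_of_orderOf {L F : Type*} [Field L] [Field F] [Algebra L F] (δ : F ≃ₐ[L] F)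
    {d : ℕ} (hord : orderOf δ = d) (hd0 : d ≠ 0) {ζ : L} (hζ : IsPrimitiveRoot ζ d) :
    ∃ g, g ≠ 0 ∧ δ g = ζ • g := by
  classical
  have hd : δ ^ d = 1 := hord ▸ pow_orderOf_eq_one δ
  have hζ0 : ζ ≠ 0 := hζ.ne_zero hd0
  let χ : Fin d → (F →* F) := fun j => ((δ ^ (j : ℕ) : F ≃ₐ[L] F).toAlgHom.toRingHom : F →* F)
  -- the powers of `δ` are distinct, hence linearly independent
  have hinj : Function.Injective χ := fun i j e => by
    have e1 : δ ^ (i : ℕ) = δ ^ (j : ℕ) := AlgEquiv.ext fun x => DFunLike.congr_fun e x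
    have e2 := pow_eq_pow_iff_modEq.mp e1
    rw [hord] at e2
    exact Fin.ext (Nat.ModEq.eq_of_lt_of_lt e2 i.2 j.2)
  have hli : LinearIndependent F fun j : Fin d => (χ j : F → F) :=
    (linearIndependent_monoidHom F F).comp χ hinj
  -- so some Lagrange resolvent is nonzero
  have hex : ∃ f : F, ∑ j : Fin d, ((ζ ^ (j : ℕ))⁻¹) • (δ ^ (j : ℕ)) f ≠ 0 := by
    by_contra hcon
    push Not at hcon
    have h0 := Fintype.linearIndependent_iff.mp hli
      (fun j => algebraMap L F (ζ ^ (j : ℕ))⁻¹) (funext fun f => by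
        rw [Finset.sum_apply, Pi.zero_apply, ← hcon f]
        exact Finset.sum_congr rfl fun j _ => by
          rw [Pi.smul_apply, smul_eq_mul, Algebra.smul_def]; rfl) ⟨0, Nat.pos_of_ne_zero hd0⟩
    rw [map_eq_zero, pow_zero, inv_one] at h0
    exact one_ne_zero h0
  obtain ⟨f, hf⟩ := hex
  refine ⟨_, hf, ?_⟩
  -- `δ` shifts its terms, so multiplies it by `ζ`
  let T : ℕ → F := fun j => (ζ ^ j)⁻¹ • (δ ^ j) f
  have hT : ∀ j, δ (T j) = ζ • T (j + 1) := fun j => by
    simp only [T, map_smul, smul_smul, pow_succ' δ, AlgEquiv.mul_apply, pow_succ ζ, mul_inv]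
    congr 1
    rw [mul_left_comm, mul_inv_cancel₀ hζ0, mul_one]
  have hTd : T d = T 0 := by simp only [T, hd, pow_zero, inv_one, hζ.pow_eq_one]
  rw [Fin.sum_univ_eq_sum_range (fun j => T j) d, map_sum, Finset.smul_sum,
    Finset.sum_congr rfl fun j _ => hT j, ← Finset.smul_sum, ← Finset.smul_sum]
  congr 1
  have h1 := Finset.sum_range_succ T d
  rw [Finset.sum_range_succ' T d, hTd] at h1
  exact add_right_cancel h1

variable {N : ℕ} [NeZero N] {G G' : Subgroup (ZMod N)ˣ} [NegMem G] [NegMem G']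

/-- The diamond of a unit is trivial only for the elements of the group. -/
theorem mem_of_diamondHom_eq_one {u : (ZMod N)ˣ}
    (h : (diamondHom G embC u : FL (GammaH N G) Qb ≃ₐ[Qb] _) = 1) : u ∈ G := by
  by_cases h1 : 1 < N
  · obtain ⟨t, ht⟩ := exists_genCand (H := G) h1
    set z : FL (GammaH N G) Qb := ⟨_, ModularCurve.coeffEmb_mem_laurentBaseChange Qb
      (mem_FQ_of_qW (GammaH N G) _ (qW_genCand (H := G) h1 t))⟩
    have hz : toKW (GammaH N G) embC z =
        algebraMap (W (GammaH N G)) (KW (GammaH N G)) (genCand G t) :=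
      (qK (GammaH N G)).injective (by
        rw [qK_toKW, qK_algebraMap, qW_genCand h1 t]
        exact Fermat.MC.coeffMap_ι_coeffEmb embC _)
    have e : diamond embC (unitLift u) z = z := by
      change diamondHom G embC u z = z
      rw [h]; rfl
    have e1 := congrArg (toKW (GammaH N G) embC) e
    rw [toKW_diamond, hz, RatMap.homK_algebraMap] at e1
    have e2 := congrArg Subtype.val (algebraMap_W_injective _ e1)
    set δ : SL(2, ℤ) := ((unitLift u : CongruenceSubgroup.Gamma0 N) : SL(2, ℤ))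
    have e3 : conjHom (GammaH N G) ((δ⁻¹ : SL(2, ℤ)) : Coset (GammaH N G)) (genCand G t) =
        conjHom (GammaH N G) ((1 : SL(2, ℤ)) : Coset (GammaH N G)) (genCand G t) := by
      rw [conjHom_mk, conjHom_one, inv_inv]
      exact Subtype.ext e2
    have e4 := QuotientGroup.eq.mp (ht e3)
    rw [inv_inv, mul_one] at e4
    obtain ⟨h0, hu⟩ := mem_GammaH.mp e4
    rwa [Subtype.coe_eta, gamma0Units_unitLift] at hu
  · have hN : N = 1 := by have := NeZero.pos N; omega
    subst hN
    rw [Subsingleton.elim u 1]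
    exact one_mem G

variable (u₀ : (ZMod N)ˣ) (hgen : G' = G ⊔ Subgroup.zpowers u₀)

include hgen in
/-- `G` is contained in `G'`. -/
theorem le_sup : G ≤ G' := hgen ▸ le_sup_left

include hgen in
/-- `u₀` lies in `G'`. -/
theorem u₀_mem : u₀ ∈ G' := hgen ▸ (le_sup_right : _ ≤ G ⊔ Subgroup.zpowers u₀)
  (Subgroup.mem_zpowers u₀)

/-- The degree of the cover. -/
def deg (G G' : Subgroup (ZMod N)ˣ) : ℕ := G.relIndex G'

/-- The degree of the cover is nonzero. -/
theorem deg_ne_zero : deg G G' ≠ 0 := by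
  intro h
  have := Nat.card_pos (α := ↥G' ⧸ G.subgroupOf G')
  rw [← Subgroup.index_eq_card] at this
  exact this.ne' h

include hgen in
/-- `u₀` has order `deg G G'` modulo `G`. -/
theorem orderOf_u₀ : orderOf (QuotientGroup.mk u₀ : (ZMod N)ˣ ⧸ G) = deg G G' := by
  rw [← Nat.card_zpowers, deg]
  conv_rhs => rw [← QuotientGroup.ker_mk' G]
  rw [← MonoidHom.comap_bot, Subgroup.relIndex_comap, Subgroup.relIndex_bot_left, hgen,
    Subgroup.map_sup, MonoidHom.map_zpowers,
    (Subgroup.map_eq_bot_iff _).mpr (QuotientGroup.ker_mk' G).ge, bot_sup_eq]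
  rfl

include hgen in
/-- A power of `u₀` lies in `G` iff its exponent is a multiple of the degree. -/
theorem pow_mem_iff (j : ℕ) : u₀ ^ j ∈ G ↔ deg G G' ∣ j := by
  rw [← orderOf_u₀ u₀ hgen, orderOf_dvd_iff_pow_eq_one, ← QuotientGroup.mk_pow,
    QuotientGroup.eq_one_iff]

/-- The generator of the group of the cover. -/
def gen (G : Subgroup (ZMod N)ˣ) [NegMem G] (u : (ZMod N)ˣ) :
    FL (GammaH N G) Qb ≃ₐ[Qb] FL (GammaH N G) Qb :=
  diamondHom G embC u

include hgen in
/-- A power of `gen` is trivial iff its exponent is a multiple of the degree. -/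
theorem gen_pow_eq_one_iff (j : ℕ) : gen G u₀ ^ j = 1 ↔ deg G G' ∣ j := by
  rw [gen, ← map_pow, ← pow_mem_iff u₀ hgen]
  exact ⟨mem_of_diamondHom_eq_one, fun h => diamondHom_eq_one embC h⟩

variable (hle : GammaH N G ≤ GammaH N G')

include hgen in
/-- `gen` fixes the quotient level. -/
theorem gen_incl (f : FL (GammaH N G') Qb) :
    gen G u₀ (inclFL Qb hle f) = inclFL Qb hle f := by
  rw [gen, diamond_inclFL embC dvd_rfl hle, ZMod.unitsMap_self,
    diamondHom_eq_one embC (show MonoidHom.id _ u₀ ∈ G' from u₀_mem u₀ hgen), AlgEquiv.one_apply]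

/-- The degree of the cover is the quotient of the indices. -/
theorem finrankAlong_incl : finrankAlong Qb (inclFL Qb hle) = G.index / G'.index := by
  have h := finrankAlong_inclFL hle
  rw [Fermat.MC.Lvl.psiG_GammaH, Fermat.MC.Lvl.psiG_GammaH, ← mul_assoc] at h
  rw [← Nat.eq_of_mul_eq_mul_right (Nat.pos_of_ne_zero fun h0 => by
    have := psiG_pos (GammaH N G)
    rw [Fermat.MC.Lvl.psiG_GammaH, h0, mul_zero] at this
    exact lt_irrefl 0 this) h, Nat.mul_div_cancel _
      (Nat.pos_of_ne_zero Subgroup.index_ne_zero_of_finite)]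

include hgen in
/-- The degree of the cover is `deg G G'`. -/
theorem finrankAlong_eq_deg : finrankAlong Qb (inclFL Qb hle) = deg G G' := by
  rw [finrankAlong_incl hle, ← Subgroup.relIndex_mul_index (le_sup u₀ hgen),
    Nat.mul_div_cancel _ (Nat.pos_of_ne_zero Subgroup.index_ne_zero_of_finite), deg]

include hgen in
/-- A function fixed by the diamond of `u₀` comes from the quotient level. -/
theorem fixed_mem_range {f : FL (GammaH N G) Qb} (hf : gen G u₀ f = f) :
    f ∈ (inclFL Qb hle).range := by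
  set φ := inclFL Qb hle
  let := algebraAlong φ
  have := isScalarTower_along φ
  have : Module.Finite (FL (GammaH N G') Qb) (FL (GammaH N G) Qb) := FF.finiteAlong φ
  let δ' : FL (GammaH N G) Qb ≃ₐ[FL (GammaH N G') Qb] FL (GammaH N G) Qb :=
    { (gen G u₀).toRingEquiv with commutes' := gen_incl u₀ hgen hle }
  have hpow : ∀ (j : ℕ) (x : FL (GammaH N G) Qb), (δ' ^ j) x = (gen G u₀ ^ j) x := fun j x => by
    induction j generalizing x with
    | zero => rfl
    | succ j ih => rw [pow_succ, pow_succ, AlgEquiv.mul_apply, AlgEquiv.mul_apply, ih]; rfl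
  have hord : orderOf δ' = deg G G' := by
    refine Nat.dvd_antisymm (orderOf_dvd_of_pow_eq_one ?_) ?_
    · refine AlgEquiv.ext fun x => ?_
      rw [hpow, (gen_pow_eq_one_iff u₀ hgen _).mpr dvd_rfl]
      rfl
    · refine (gen_pow_eq_one_iff u₀ hgen _).mp (AlgEquiv.ext fun x => ?_)
      rw [← hpow, pow_orderOf_eq_one]
      rfl
  have h1 := IntermediateField.finrank_fixedField_eq_card (Subgroup.zpowers δ')
  rw [Nat.card_zpowers, hord] at h1
  have h2 : Module.finrank (FL (GammaH N G') Qb) (FL (GammaH N G) Qb) = deg G G' :=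
    finrankAlong_eq_deg u₀ hgen hle
  -- The fixed field has degree one by Artin.
  have h3 : IntermediateField.fixedField (Subgroup.zpowers δ') = ⊥ := by
    rw [← IntermediateField.finrank_eq_one_iff]
    have h := Module.finrank_mul_finrank (FL (GammaH N G') Qb)
      (IntermediateField.fixedField (Subgroup.zpowers δ')) (FL (GammaH N G) Qb)
    rw [h1, h2] at h
    exact Nat.eq_of_mul_eq_mul_right (Nat.pos_of_ne_zero deg_ne_zero) (by rw [h, one_mul])
  have hmem : f ∈ IntermediateField.fixedField (Subgroup.zpowers δ') := by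
    rintro ⟨g, hg⟩
    have hstab : δ' ∈ MulAction.stabilizer
        (FL (GammaH N G) Qb ≃ₐ[FL (GammaH N G') Qb] FL (GammaH N G) Qb) f := hf
    exact (Subgroup.zpowers_le.mpr hstab) hg
  rw [h3] at hmem
  obtain ⟨c, hc⟩ := IntermediateField.mem_bot.mp hmem
  exact ⟨c, hc⟩

include hgen in
/-- `gen` has order `deg G G'`. -/
theorem orderOf_gen : orderOf (gen G u₀) = deg G G' :=
  Nat.dvd_antisymm (orderOf_dvd_of_pow_eq_one ((gen_pow_eq_one_iff u₀ hgen _).mpr dvd_rfl))
    ((gen_pow_eq_one_iff u₀ hgen _).mp (pow_orderOf_eq_one _))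

include hgen in
/-- `gen` has an eigenvector for each primitive root of unity of order the degree. -/
theorem exists_eigen {ζ : Qb} (hζ : IsPrimitiveRoot ζ (deg G G')) :
    ∃ g, g ≠ 0 ∧ gen G u₀ g = ζ • g :=
  exists_eigen_of_orderOf (gen G u₀) (orderOf_gen u₀ hgen) deg_ne_zero hζ

include hgen in
/-- **The cyclic cover.** When `G' = G ⊔ ⟨u₀⟩`, the function field of `X_G(N)` is cyclic of degree
`deg G G'` over that of `X_{G'}(N)`, generated by the diamond of `u₀`. -/
theorem exists_cyclic :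
    ∃ C : Cover.Cyclic Qb (FL (GammaH N G') Qb) (FL (GammaH N G) Qb),
      C.φ = inclFL Qb hle ∧ C.d = deg G G' ∧ C.δ = gen G u₀ := by
  classical
  have : NeZero ((deg G G' : ℕ) : Qb) := ⟨Nat.cast_ne_zero.mpr deg_ne_zero⟩
  obtain ⟨ζ, hζ⟩ := HasEnoughRootsOfUnity.exists_primitiveRoot Qb (deg G G')
  obtain ⟨g, hg, hgζ⟩ := exists_eigen u₀ hgen hζ
  have hfix : gen G u₀ (g ^ deg G G') = g ^ deg G G' := by
    rw [map_pow, hgζ, smul_pow, hζ.pow_eq_one, one_smul]
  obtain ⟨e, he⟩ := fixed_mem_range u₀ hgen hle hfix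
  exact ⟨Cover.Cyclic.ofFixed (inclFL Qb hle) (gen G u₀)
    (Nat.cast_ne_zero.mpr deg_ne_zero) hζ g hg e he.symm (gen_incl u₀ hgen hle) hgζ
    ((gen_pow_eq_one_iff u₀ hgen _).mpr dvd_rfl) (fun f hf => fixed_mem_range u₀ hgen hle hf),
    rfl, rfl, rfl⟩

end Fermat.BAD.XC

end
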