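import Fermat.Agent.JAC.XH.SwapEmb

/-!
# The Atkin-Lehner substitution normalises the levels between `Γ₁` and `Γ₀` at the good factor

For `q x - M y = 1` the substitution `z ↦ δ (q z)`, `δ = (x, y; M, q)`, normalises `Γ_G(M q)` as
soon as the elements of `G` square to one modulo `M`.
-/

set_option autoImplicit false
set_option linter.unusedSectionVars false

noncomputable section

open CongruenceSubgroup
open UpperHalfPlane hiding I
open ModularCurve (coeffEmb qExpand jq)
open scoped MatrixGroups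

namespace Fermat.BAD.XC

open Fermat.MC.Lvl Fermat.JAC.XH
open Fermat.MC (compSL compSL_apply affH coe_affH posN jA jN)

/-- The elements of `G` square to one modulo `M`. -/
class SqOne (M q : ℕ) (G : Subgroup (ZMod (M * q))ˣ) : Prop where
  /-- The square of an element of `G` is one modulo `M`. -/
  sq_one : ∀ u ∈ G, ZMod.unitsMap (dvd_mul_right M q) u ^ 2 = 1

variable (M q : ℕ) [NeZero M] [NeZero q] (G : Subgroup (ZMod (M * q))ˣ)
  (x y : ℤ) (hdet : (q : ℤ) * x - M * y = 1)

/-- The point substituted by Atkin-Lehner: `swapMat` applied to `q z`. -/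
def alPt (z : ℍ) : ℍ := swapMat M q x y hdet • affH (posN q) 0 z

/-- The substitution in coordinates. -/
theorem coe_alPt (z : ℍ) : (alPt M q x y hdet z : ℂ) =
    ((x : ℂ) * ((q : ℂ) * z) + y) / ((M : ℂ) * ((q : ℂ) * z) + q) := by
  rw [alPt, coe_specialLinearGroup_apply, coe_affH]
  simp [posN, swapMat]

omit [NeZero M] [NeZero q] in
include hdet in
/-- `M` and `q` are coprime. -/
theorem isCoprime_Mq : IsCoprime (M : ℤ) (q : ℤ) := ⟨-y, x, by linear_combination hdet⟩

/-- Conjugation by the substitution. -/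
theorem exists_alConj [SqOne M q G] {γ : SL(2, ℤ)} (hγ : γ ∈ GammaH (M * q) G) :
    ∃ γ' ∈ GammaH (M * q) G, ∀ z : ℍ, alPt M q x y hdet (γ • z) = γ' • alPt M q x y hdet z := by
  obtain ⟨h0, h, hG, hh⟩ := mem_GammaH_iff.mp hγ
  rw [Gamma0_mem, ZMod.intCast_zmod_eq_zero_iff_dvd] at h0
  obtain ⟨m, hm⟩ := h0
  push_cast at hm
  have hd : γ 0 0 * γ 1 1 - γ 0 1 * γ 1 0 = 1 :=
    (Matrix.det_fin_two (γ : Matrix (Fin 2) (Fin 2) ℤ)).symm.trans γ.2
  have hdet₁ : Matrix.det !![γ 0 0, (q : ℤ) * γ 0 1; (M : ℤ) * m, γ 1 1] = 1 := by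
    rw [Matrix.det_fin_two_of]; linear_combination hd + γ 0 1 * hm
  -- conjugate `diag(q, 1) γ diag(1/q, 1)` by the swap
  set γ₁ : SL(2, ℤ) := ⟨_, hdet₁⟩ with hγ₁
  set δ := swapMat M q x y hdet
  refine ⟨δ * γ₁ * δ⁻¹, ?_, fun z => ?_⟩
  · have hmat : ((δ * γ₁ * δ⁻¹ : SL(2, ℤ)) : Matrix (Fin 2) (Fin 2) ℤ) =
        !![x, y; (M : ℤ), (q : ℤ)] * !![γ 0 0, (q : ℤ) * γ 0 1; (M : ℤ) * m, γ 1 1] *
          !![(q : ℤ), -y; -(M : ℤ), x] := by
      rw [Matrix.SpecialLinearGroup.coe_mul, Matrix.SpecialLinearGroup.coe_mul,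
        Matrix.SpecialLinearGroup.coe_inv, Matrix.adjugate_fin_two]
      rfl
    set E : ℤ := (δ * γ₁ * δ⁻¹) 1 1
    have hE : E = -y * ((M : ℤ) * γ 0 0 + q * (M * m)) +
        x * ((M : ℤ) * ((q : ℤ) * γ 0 1) + q * γ 1 1) := by
      simp only [E, hmat]
      simp [Matrix.mul_apply, Fin.sum_univ_two]
      ring
    have hC : ((M * q : ℕ) : ℤ) ∣ (δ * γ₁ * δ⁻¹) 1 0 := by
      refine ⟨(γ 0 0) + q * m - M * γ 0 1 - γ 1 1, ?_⟩
      rw [hmat]
      simp [Matrix.mul_apply, Fin.sum_univ_two]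
      ring
    refine mem_GammaH_iff.mpr ⟨?_, h⁻¹, inv_mem hG, ?_⟩
    · rw [Gamma0_mem, ZMod.intCast_zmod_eq_zero_iff_dvd]; exact hC
    refine Units.inv_eq_of_mul_eq_one_right ?_
    rw [hh, ← Int.cast_mul, ← sub_eq_zero, ← Int.cast_one (R := ZMod (M * q)), ← Int.cast_sub,
      ZMod.intCast_zmod_eq_zero_iff_dvd, Nat.cast_mul]
    -- its lower entry is inverse to that of `γ`, modulo `M` and `q`
    refine (isCoprime_Mq M q x y hdet).mul_dvd ?_ ?_
    · have hsq : ((γ 1 1 : ℤ) : ZMod M) ^ 2 = 1 := by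
        have h2 := congrArg Units.val (SqOne.sq_one (M := M) (q := q) h hG)
        rwa [Units.val_pow_eq_pow_val, ZMod.unitsMap_val, hh, ZMod.cast_intCast (dvd_mul_right M q),
          Units.val_one] at h2
      rw [← ZMod.intCast_zmod_eq_zero_iff_dvd]
      have hx : (q : ZMod M) * (x : ZMod M) = 1 := by
        have := congrArg (fun n : ℤ => (n : ZMod M)) hdet
        simpa using this
      change (((γ 1 1 : ℤ) * E - 1 : ℤ) : ZMod M) = 0
      rw [hE]
      push_cast
      simp only [ZMod.natCast_self, zero_mul, mul_zero, add_zero, zero_add]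
      linear_combination ((γ 1 1 : ℤ) : ZMod M) ^ 2 * hx + hsq
    · rw [← ZMod.intCast_zmod_eq_zero_iff_dvd]
      have hy : (M : ZMod q) * (y : ZMod q) = -1 := by
        have := congrArg (fun n : ℤ => (n : ZMod q)) hdet
        simp only [Int.cast_sub, Int.cast_mul, Int.cast_natCast, ZMod.natCast_self, zero_mul,
          Int.cast_one, zero_sub] at this
        linear_combination -this
      have had : ((γ 0 0 : ℤ) : ZMod q) * ((γ 1 1 : ℤ) : ZMod q) = 1 := by
        have h' := congrArg (fun n : ℤ => (n : ZMod q)) hd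
        simp only [hm, Int.cast_sub, Int.cast_mul, Int.cast_natCast, ZMod.natCast_self,
          Int.cast_one, mul_zero, zero_mul, sub_zero] at h'
        exact h'
      change (((γ 1 1 : ℤ) * E - 1 : ℤ) : ZMod q) = 0
      rw [hE]
      push_cast
      simp only [ZMod.natCast_self, zero_mul, mul_zero, add_zero]
      linear_combination had - ((γ 0 0 : ℤ) : ZMod q) * ((γ 1 1 : ℤ) : ZMod q) * hy
  · change δ • affH (posN q) 0 (γ • z) = (δ * γ₁ * δ⁻¹) • δ • affH (posN q) 0 z
    rw [Fermat.MC.affH_posN_smul q γ γ₁ (g := q) (b := 0) (d := 1)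
      (by exact_mod_cast NeZero.pos q) one_pos (by simp [hγ₁]; ring)
      (by simp [hγ₁]) (by simp [hγ₁, hm]; ring) (by simp [hγ₁]), ← mul_smul, ← mul_smul,
      inv_mul_cancel_right]
    simp [posN]

variable [NegMem G] [SqOne M q G]

/-- The substitution preserves the functions of level `Γ_G(M q)`. -/
theorem comp_alPt_mem_W (f : W (GammaH (M * q) G)) :
    (f : ℍ → ℂ) ∘ alPt M q x y hdet ∈ W (GammaH (M * q) G) := by
  refine ⟨Fermat.MC.mdiff_comp_affH (Fermat.MC.mdiff_compSL (swapMat M q x y hdet) f.2.1) _ _,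
    fun γ hγ => funext fun z => ?_, fun γ => ?_⟩
  · obtain ⟨γ', hγ', hz⟩ := exists_alConj M q G x y hdet hγ
    simp only [compSL_apply, Function.comp_apply, hz z]
    exact congrFun (f.2.2.1 _ hγ') _
  · obtain ⟨δ, g, b, d, hg, hd, -, h1, h2, h3, h4⟩ := Fermat.MC.exists_decomp q γ
    have hfun : compSL γ ((f : ℍ → ℂ) ∘ alPt M q x y hdet) =
        compSL (swapMat M q x y hdet * δ) (f : ℍ → ℂ) ∘ affH ⟨(g : ℝ) / d,
          div_pos (by exact_mod_cast hg) (by exact_mod_cast hd)⟩ (b / d) := funext fun z => by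
      simp only [compSL_apply, Function.comp_apply, alPt]
      rw [Fermat.MC.affH_posN_smul q γ δ hg hd h1 h2 h3 h4, mul_smul]
    rw [hfun]
    exact (f.2.2.2 _).comp_affH _ _

/-- `f ↦ f (δ (q z))`. -/
def alW : W (GammaH (M * q) G) →ₐ[ℂ] W (GammaH (M * q) G) where
  toFun f := ⟨_, comp_alPt_mem_W M q G x y hdet f⟩
  map_one' := rfl
  map_mul' _ _ := rfl
  map_zero' := rfl
  map_add' _ _ := rfl
  commutes' _ := rfl

/-- `alW` is composition with the substitution. -/
@[simp] theorem coe_alW (f : W (GammaH (M * q) G)) (z : ℍ) :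
    (alW M q G x y hdet f : ℍ → ℂ) z = (f : ℍ → ℂ) (alPt M q x y hdet z) := rfl

/-- The square of the substitution, in `Γ₀(M q)`. -/
def alSq : SL(2, ℤ) :=
  ⟨!![(q : ℤ) * x * x + M * y, y * (x + 1); (M : ℤ) * q * (x + 1), M * y + q], by
    rw [Matrix.det_fin_two_of]
    linear_combination ((q : ℤ) * x - M * y + 1) * hdet⟩

omit [NeZero M] [NeZero q] in
/-- `alSq` lies in `Γ₀(M q)`. -/
theorem alSq_mem : alSq M q x y hdet ∈ Gamma0 (M * q) := by
  rw [Gamma0_mem, ZMod.intCast_zmod_eq_zero_iff_dvd]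
  exact ⟨x + 1, by simp [alSq]⟩

/-- The square of the substitution is `alSq`. -/
theorem alPt_alPt (z : ℍ) : alPt M q x y hdet (alPt M q x y hdet z) = alSq M q x y hdet • z := by
  apply UpperHalfPlane.ext
  rw [coe_specialLinearGroup_apply, coe_alPt, coe_alPt]
  have hq : (q : ℂ) ≠ 0 := Nat.cast_ne_zero.mpr (NeZero.ne q)
  have ht : (M : ℂ) * z + 1 ≠ 0 := by
    intro h
    have h' := congrArg Complex.im h
    simp at h'
    exact (mul_ne_zero (Nat.cast_ne_zero.mpr (NeZero.ne M)) z.im_ne_zero) (by simpa using h')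
  rw [show (M : ℂ) * ((q : ℂ) * z) + q = (q : ℂ) * ((M : ℂ) * z + 1) by ring,
    mul_div_assoc', mul_div_mul_left _ _ hq, mul_div_assoc', mul_div_assoc',
    div_add' _ _ _ ht, div_add' _ _ _ ht, div_div_div_cancel_right₀ ht]
  simp [alSq]
  congr 1 <;> ring

/-- `alW` squares to the action of `alSq`. -/
theorem alW_alW (f : W (GammaH (M * q) G)) :
    alW M q G x y hdet (alW M q G x y hdet f) =
      transW (ratNormal_Gamma0 (alSq_mem M q x y hdet)) f :=
  Subtype.ext (funext fun z => congrArg (f : ℍ → ℂ) (alPt_alPt M q x y hdet z))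

/-- `alW` is injective. -/
theorem alW_injective : Function.Injective (alW M q G x y hdet) := fun f g h => by
  have h1 := congrArg (alW M q G x y hdet) h
  rw [alW_alW, alW_alW] at h1
  exact (transMap (ratNormal_Gamma0 (alSq_mem M q x y hdet))).injective h1

/-- The substitution on meromorphic functions. -/
def alK : KW (GammaH (M * q) G) →+* KW (GammaH (M * q) G) :=
  IsFractionRing.lift (A := W (GammaH (M * q) G))
    (g := (algebraMap (W (GammaH (M * q) G)) (KW (GammaH (M * q) G))).comp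
      (alW M q G x y hdet).toRingHom)
    ((algebraMap_W_injective _).comp (alW_injective M q G x y hdet))

/-- `alK` extends `alW`. -/
theorem alK_algebraMap (f : W (GammaH (M * q) G)) :
    alK M q G x y hdet (algebraMap (W (GammaH (M * q) G)) (KW (GammaH (M * q) G)) f) =
      algebraMap (W (GammaH (M * q) G)) (KW (GammaH (M * q) G)) (alW M q G x y hdet f) :=
  IsFractionRing.lift_algebraMap (K := KW (GammaH (M * q) G))
    (g := (algebraMap (W (GammaH (M * q) G)) (KW (GammaH (M * q) G))).comp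
      (alW M q G x y hdet).toRingHom) _ f

/-- `alK` squares to the action of `alSq`. -/
theorem alK_alK (k : KW (GammaH (M * q) G)) :
    alK M q G x y hdet (alK M q G x y hdet k) =
      (transMap (ratNormal_Gamma0 (alSq_mem M q x y hdet))).homK k := by
  obtain ⟨a, b, -, rfl⟩ := IsFractionRing.div_surjective (A := W (GammaH (M * q) G)) k
  simp only [map_div₀, alK_algebraMap, alW_alW, RatMap.homK_algebraMap]
  rfl

/-- The expansion of the transform of `j (z)` is that of `j (q z)`. -/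
theorem qW_alW_jW : qW (GammaH (M * q) G) (alW M q G x y hdet (jW _)) =
    coeffEmb ℂ (qExpand ℚ q jq) := by
  have e : (alW M q G x y hdet (jW _) : ℍ → ℂ) = jN q :=
    funext fun z => Fermat.MC.jA_smul _ _
  rw [← Fermat.MC.qW_jN q]
  change Fermat.MC.qL _ = Fermat.MC.qL _
  exact congrArg _ (Subtype.ext e)

/-- The Atkin-Lehner substitution carries `j (M q z)` to `j (M z)`. -/
theorem alW_jN :
    (alW M q G x y hdet ⟨jN (M * q), jN_mem_W_GammaH⟩ : ℍ → ℂ) = jN M := by
  funext z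
  have hd : Matrix.det !![(q : ℤ) * x, (M : ℤ) * y; 1, 1] = 1 := by
    rw [Matrix.det_fin_two_of]; linear_combination hdet
  have h : affH (posN (M * q)) 0 (alPt M q x y hdet z) =
      (show SL(2, ℤ) from ⟨_, hd⟩) • affH (posN M) 0 z := by
    apply UpperHalfPlane.ext
    rw [coe_affH, coe_alPt, coe_specialLinearGroup_apply, coe_affH]
    simp [posN]
    have hq : (q : ℂ) ≠ 0 := Nat.cast_ne_zero.mpr (NeZero.ne q)
    rw [show (M : ℂ) * ((q : ℂ) * z) + q = (q : ℂ) * ((M : ℂ) * z + 1) by ring]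
    field_simp
  change jA (affH (posN (M * q)) 0 (alPt M q x y hdet z)) = _
  rw [h, Fermat.MC.jA_smul]
  rfl

/-- The expansion of the transform of `j (M q z)` is that of `j (M z)`. -/
theorem qW_alW_jN : qW (GammaH (M * q) G) (alW M q G x y hdet ⟨jN (M * q), jN_mem_W_GammaH⟩) =
    coeffEmb ℂ (qExpand ℚ M jq) := by
  rw [← Fermat.MC.qW_jN M]
  change Fermat.MC.qL _ = Fermat.MC.qL _
  exact congrArg _ (Subtype.ext (alW_jN M q G x y hdet))

end Fermat.BAD.XC

end
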