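import Fermat.Agent.GR.ES.Point
import Fermat.Agent.GR.Deform.MatrixRep

/-!
# A quadratic relation on torsion passes to the representation at a point of the Hecke ring

`exists_rep_quadratic` and `exists_rep_relation` give the representation at a point together with
the relations.
-/

set_option autoImplicit false
set_option linter.unusedSectionVars false

noncomputable section

namespace Fermat.BAD.XC

open Fermat.GR Fermat.GR.ESData

local notation "ℚbar" => AlgebraicClosure ℚ
local notation "Γℚ" => (AlgebraicClosure ℚ ≃ₐ[ℚ] AlgebraicClosure ℚ)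
local notation "M2" O => Matrix (Fin 2) (Fin 2) O

variable {R J : Type} [CommRing R] [Module.Free ℤ R] [Module.Finite ℤ R] [AddCommGroup J]
  [DistribMulAction (AlgebraicClosure ℚ ≃ₐ[ℚ] AlgebraicClosure ℚ) J]
  {M p : ℕ} [Fact p.Prime] {T ε : ℕ → R} (D : ESData R J M p T ε)

/-- `d t (σ - 1) (σ - c) = 0` on the `p`-power torsion. -/
def Relation (σ : Γℚ) (d : ℕ) (t c : R) : Prop :=
  ∀ (n : ℕ) (x : J), p ^ n • x = 0 →
    d • D.act t (σ • (σ • x - D.act c x) - (σ • x - D.act c x)) = 0

/-- `d t (σ² - a σ + b) = 0` on the `p`-power torsion. -/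
def Quadratic (σ : Γℚ) (d : ℕ) (t a b : R) : Prop :=
  ∀ (n : ℕ) (x : J), p ^ n • x = 0 →
    d • D.act t (σ • σ • x - D.act a (σ • x) + D.act b x) = 0

/-- `(σ - 1) (σ - c) = σ² - (1 + c) σ + c`. -/
theorem Relation.quadratic {σ : Γℚ} {d : ℕ} {t c : R} (h : Relation D σ d t c) :
    Quadratic D σ d t (1 + c) c := fun n x hx => by
  have e := h n x hx
  rw [smul_sub σ (σ • x) _, D.galois_act σ c x] at e
  rw [show D.act (1 + c) = 1 + D.act c by rw [map_add, map_one],
    show (1 + D.act c) (σ • x) = σ • x + D.act c (σ • x) from rfl]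
  convert e using 3
  abel

/-- The coordinates, as an additive map. -/
def coeffHom (i : Fin 2) : D.Λ →+ R :=
  AddMonoidHom.ofMapSub (fun l => D.coeff l i) fun l m => D.coeff_sub l m i

/-- `coeffHom` gives the coordinates. -/
theorem coeffHom_apply (i : Fin 2) (l : D.Λ) : coeffHom D i l = D.coeff l i := rfl

/-- A quadratic relation on the torsion holds for the matrices at the point, up to the factor `d
t` and modulo `p ^ n`. -/
theorem aMat_relation {σ : Γℚ} {d : ℕ} {t a b : R} (h : Quadratic D σ d t a b) (n : ℕ)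
    (i j : Fin 2) :
    (p : R) ^ n ∣ (d : R) * t * ((D.aMat n σ * D.aMat n σ) i j - (D.k : R) * a * D.aMat n σ i j +
      (D.k : R) * (D.k : R) * b * (if i = j then 1 else 0)) := by
  have hnsmul : ∀ (m : ℕ) (l : D.Λ), coeffHom D i (m • l) = (m : R) * coeffHom D i l :=
      fun m l => by
    rw [map_nsmul, nsmul_eq_mul]
  have hsmul : ∀ (r : R) (l : D.Λ), coeffHom D i (r • l) = r * coeffHom D i l := fun r l =>
    D.coeff_smul r l i
  set W : D.Λ := (∑ l, D.coeff (D.img n σ j) l • D.img n σ l) - D.k • (a • D.img n σ j) +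
    D.k • (b • D.e j) with hW
  set x : J := D.π n (D.e j) with hx
  have hπW : D.π n W = D.k • (σ • σ • x - D.act a (σ • x) + D.act b x) := by
    have h1 : D.π n (∑ l, D.coeff (D.img n σ j) l • D.img n σ l) = D.k • (σ • (σ • x)) := by
      rw [← gal_π_sum, ← D.coeff_spec, map_nsmul, map_nsmul, π_img]
      rfl
    rw [hW, map_add, map_sub, h1, map_nsmul, map_nsmul, D.π_smul, D.π_smul, π_img, gal_apply, ← hx]
    simp only [nsmul_sub, nsmul_add]
  have hπ : D.π n (d • (t • W)) = D.π n 0 := by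
    rw [map_zero, map_nsmul, D.π_smul, hπW, map_nsmul, smul_comm,
      h n x (D.torsion_π n _), smul_zero]
  have hc := D.coeff_cong hπ i
  rw [← coeffHom_apply, ← coeffHom_apply, map_zero, sub_zero, hnsmul, hsmul, ← mul_assoc] at hc
  suffices e : coeffHom D i W = (D.aMat n σ * D.aMat n σ) i j - (D.k : R) * a * D.aMat n σ i j +
      (D.k : R) * (D.k : R) * b * (if i = j then 1 else 0) by
    rw [e] at hc; exact hc
  rw [hW, map_add, map_sub, hnsmul, hnsmul, hsmul, hsmul, map_sum]
  simp only [hsmul, coeffHom_apply, D.coeff_e, Matrix.mul_apply, aMat_apply]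
  rw [Finset.sum_congr rfl fun l _ => mul_comm (D.coeff (D.img n σ j) l) _]
  split_ifs <;> ring

local notation "B" => PComp p R
local notation "ι" => toPComp p R

/-- A quadratic relation on the torsion holds for the matrices over the completed Hecke ring,
up to the factor `d t`. -/
theorem bMat_relation {σ : Γℚ} {d : ℕ} {t a b : R} (h : Quadratic D σ d t a b) (i j : Fin 2) :
    (d : B) * ι t * ((D.bMat σ * D.bMat σ) i j - (D.k : B) * ι a * D.bMat σ i j +
      (D.k : B) * (D.k : B) * ι b * (if i = j then 1 else 0)) = 0 := by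
  refine eq_of_forall_modPow fun n => ?_
  have h2 := modPow_toPComp_eq (p := p) (n := n) (y := 0)
    (dvd_sub (aMat_relation D h n i j) (dvd_zero _))
  have hb : ∀ i j, modPow n (D.bMat σ i j) = modPow n (ι (D.aMat n σ i j)) := fun i j =>
    congrFun (congrFun (D.modPow_bMat n σ) i) j
  simp only [map_zero] at h2
  rw [map_zero, ← h2]
  simp only [Matrix.mul_apply, Fin.sum_univ_two, map_add, map_sub, map_mul, map_natCast, hb]
  split_ifs <;> simp

/-- **The representation at a point, with the quadratic relations.** -/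
theorem exists_rep_quadratic {O : Type} [CommRing O] [IsDomain O] [IsDiscreteValuationRing O]
    [IsAdicComplete (IsLocalRing.maximalIdeal O) O] [CharZero O]
    (hp : (p : O) ∈ IsLocalRing.maximalIdeal O) (f : R →+* O) :
    ∃ r : Γℚ →* M2 O, MatCont r ∧
      (∀ ℓ : ℕ, ℓ.Prime → ¬ ℓ ∣ M * p → ∀ A : ValuationSubring ℚbar, A.LiesOverPrime ℓ →
        (∀ σ ∈ A.inertiaSubgroupIn ℚ, r σ = 1) ∧
        ∀ σ : Γℚ, A.IsFrobeniusAt σ ℓ →
          (r σ).trace = f (T ℓ) ∧ (r σ).det = (ℓ : O) * f (ε ℓ)) ∧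
      ∀ (σ : Γℚ) (d : ℕ) (t a a' : R), d ≠ 0 → f t ≠ 0 → Quadratic D σ d t a a' →
        r σ * r σ - f a • r σ + f a' • (1 : M2 O) = 0 := by
  obtain ⟨ρ, hcp, hur, hquad⟩ := D.exists_galoisRepAdic_quadratic hp f
  set F : PComp p R →+* O := pCompLift (padicToAdic O hp) f
  refine ⟨matOf ρ (someBasis ρ), matCont_matOf ρ _, fun ℓ hℓ hℓp A hA => ⟨fun σ hσ => ?_,
    fun σ hσ => ?_⟩, fun σ d t a a' hd ht h => ?_⟩
  · rw [matOf_apply, hur ℓ hℓ hℓp A hA σ hσ]
    exact LinearMap.toMatrix_one _
  · have hc := hcp ℓ hℓ hℓp A hA σ hσ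
    rw [← LinearMap.charpoly_toMatrix (ρ.ρ σ) (someBasis ρ), Matrix.charpoly_fin_two] at hc
    refine ⟨?_, ?_⟩
    · have h1 := congrArg (fun P => Polynomial.coeff P 1) hc
      simpa [matOf_apply, Polynomial.coeff_X_pow] using h1
    · have h0 := congrArg (fun P => Polynomial.coeff P 0) hc
      simpa [matOf_apply, Polynomial.coeff_X_pow] using h0
  -- the relation for the matrices at the point, then on the lattice
  · have hend : ρ.ρ σ * ρ.ρ σ - f a • ρ.ρ σ + f a' • 1 = 0 := hquad σ _ _ (by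
      ext i j
      have h1 := congrArg F (bMat_relation D h i j)
      rw [map_zero, map_mul, map_mul, map_natCast] at h1
      have hFt : F (ι t) = f t := pCompLift_toPComp _ _ _
      have hFa : F (ι a) = f a := pCompLift_toPComp _ _ _
      have hFa' : F (ι a') = f a' := pCompLift_toPComp _ _ _
      rw [hFt] at h1
      have h2 := (mul_eq_zero.mp h1).resolve_left (mul_ne_zero (Nat.cast_ne_zero.mpr hd) ht)
      simp only [map_add, map_sub, map_mul, map_natCast, hFa, hFa', Matrix.mul_apply,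
        Fin.sum_univ_two] at h2
      rw [Matrix.zero_apply, Matrix.add_apply, Matrix.sub_apply, Matrix.mul_apply, Fin.sum_univ_two]
      simp only [Matrix.smul_apply, smul_eq_mul, Matrix.one_apply, RingHom.mapMatrix_apply,
        Matrix.map_apply]
      fin_cases i <;> fin_cases j <;> simp at h2 ⊢ <;> linear_combination h2)
    have hm := congrArg (LinearMap.toMatrixAlgEquiv (someBasis ρ)) hend
    rwa [map_add, map_sub, map_mul, map_smul, map_smul, map_one, map_zero] at hm

/-- **The representation at a point, with the relations.** -/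
theorem exists_rep_relation {O : Type} [CommRing O] [IsDomain O] [IsDiscreteValuationRing O]
    [IsAdicComplete (IsLocalRing.maximalIdeal O) O] [CharZero O]
    (hp : (p : O) ∈ IsLocalRing.maximalIdeal O) (f : R →+* O) :
    ∃ r : Γℚ →* M2 O, MatCont r ∧
      (∀ ℓ : ℕ, ℓ.Prime → ¬ ℓ ∣ M * p → ∀ A : ValuationSubring ℚbar, A.LiesOverPrime ℓ →
        (∀ σ ∈ A.inertiaSubgroupIn ℚ, r σ = 1) ∧
        ∀ σ : Γℚ, A.IsFrobeniusAt σ ℓ →
          (r σ).trace = f (T ℓ) ∧ (r σ).det = (ℓ : O) * f (ε ℓ)) ∧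
      ∀ (σ : Γℚ) (d : ℕ) (t c : R), d ≠ 0 → f t ≠ 0 → Relation D σ d t c →
        (r σ - 1) * (r σ - f c • (1 : M2 O)) = 0 := by
  obtain ⟨r, h1, h2, h3⟩ := exists_rep_quadratic D hp f
  refine ⟨r, h1, h2, fun σ d t c hd ht h => ?_⟩
  have e := h3 σ d t _ _ hd ht (h.quadratic D)
  rw [map_add, map_one, add_smul, one_smul] at e
  rw [sub_mul, one_mul, mul_sub, Matrix.mul_smul, mul_one, ← e]
  abel

end Fermat.BAD.XC

end
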