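import Fermat.Agent.BAD.XC.Normal
import Fermat.Agent.JAC.XH.FrickeMaps

/-!
# Expansions after the Atkin-Lehner substitution

`qExpand_qW_alW_gWt` identifies the expansion at `M z` of a transformed candidate generator with
`alSeries`, on which Galois acts by `coeffMap_alSeries`.
-/

set_option autoImplicit false
set_option linter.unusedSectionVars false

attribute [local instance 10000] SubalgebraClass.toAlgebra HahnSeries.powerSeriesAlgebra

noncomputable section

open Function
open UpperHalfPlane hiding I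
open ModularCurve (coeffEmb coeffMap qExpand jq)
open scoped MatrixGroups Manifold

namespace Fermat.BAD.XC

open Fermat.MC.Lvl Fermat.JAC.XH
open Fermat.MC (BddPer affH posN qS qL perAlg xiQ)

section Set

variable {N : ℕ} [NeZero N]

/-- The elements of a set of classes. -/
def setFin (S : Set (Fin 2 → ZMod N)) : Finset (Fin 2 → ZMod N) := (Set.toFinite S).toFinset

/-- Membership in `setFin`. -/
theorem mem_setFin {S : Set (Fin 2 → ZMod N)} {a : Fin 2 → ZMod N} : a ∈ setFin S ↔ a ∈ S := by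
  simp [setFin]

/-- A sum of weight four Eisenstein series over a set is that over the corresponding finite set. -/
theorem gSum_setFin (S : Set (Fin 2 → ZMod N)) (z : ℍ) :
    gSum S z = ∑ a ∈ setFin S, G4 N a z :=
  Fermat.JAC.XH.gSum_eq_sum (fun _ => mem_setFin) z

section Poly

variable {L : Type*} [Field L]

/-- The coefficients of the series of a set of classes. -/
def setC (ζ : L) (S : Set (Fin 2 → ZMod N)) (n : ℕ) : L :=
  (2 * (N : L) ^ 4)⁻¹ * ∑ a ∈ setFin S, eisA ζ a n

/-- The series of a set of classes. -/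
def setL (ζ : L) (S : Set (Fin 2 → ZMod N)) : LaurentSeries L :=
  HahnSeries.ofPowerSeries ℤ L (PowerSeries.mk (setC ζ S))

/-- The coefficients of `setL`. -/
theorem coeff_setL (ζ : L) (S : Set (Fin 2 → ZMod N)) (n : ℕ) :
    (setL ζ S).coeff (n : ℤ) = setC ζ S n := by
  rw [setL, HahnSeries.ofPowerSeries_apply_coeff, PowerSeries.coeff_mk]

/-- A change of coefficients on `setL` moves the root of unity. -/
theorem coeffMap_setL {L' : Type*} [Field L'] [CharZero L] [CharZero L'] (σ : L →+* L') (ζ : L)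
    (S : Set (Fin 2 → ZMod N)) : coeffMap σ (setL ζ S) = setL (σ ζ) S := by
  ext k
  rcases lt_or_ge k 0 with hk | hk
  · rw [ModularCurve.coeffMap_coeff, setL, setL, ModularCurve.ofPowerSeries_coeff_of_neg _ hk,
      ModularCurve.ofPowerSeries_coeff_of_neg _ hk, map_zero]
  · obtain ⟨n, rfl⟩ := Int.eq_ofNat_of_zero_le hk
    rw [ModularCurve.coeffMap_coeff, coeff_setL, coeff_setL, setC, setC, map_mul, map_inv₀, map_mul,
      map_ofNat, map_pow, map_natCast, map_sum]
    simp only [map_eisA]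

/-- A power of the root of unity moves the set of indices of an Eisenstein series by the
corresponding diagonal matrix. -/
theorem setL_pow {ζ : L} (hζ : ζ ^ N = 1) (χ : (ZMod N)ˣ) (S : Set (Fin 2 → ZMod N)) :
    setL (ζ ^ (χ : ZMod N).val) S =
      setL ζ {w | ![w 0, ((χ⁻¹ : (ZMod N)ˣ) : ZMod N) * w 1] ∈ S} := by
  ext k
  rcases lt_or_ge k 0 with hk | hk
  · rw [setL, setL, ModularCurve.ofPowerSeries_coeff_of_neg _ hk,
      ModularCurve.ofPowerSeries_coeff_of_neg _ hk]
  obtain ⟨n, rfl⟩ := Int.eq_ofNat_of_zero_le hk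
  rw [coeff_setL, coeff_setL, setC, setC]
  congr 1
  refine Finset.sum_bij' (fun a _ => ![a 0, (χ : ZMod N) * a 1])
    (fun a _ => ![a 0, ((χ⁻¹ : (ZMod N)ˣ) : ZMod N) * a 1])
    (fun a ha => ?_) (fun a ha => ?_) (fun a _ => ?_) (fun a _ => ?_) (fun a _ => eisA_pow hζ χ a n)
  · rw [mem_setFin] at ha
    rw [mem_setFin, Set.mem_ofPred_eq]
    rwa [show ![![a 0, (χ : ZMod N) * a 1] 0, ((χ⁻¹ : (ZMod N)ˣ) : ZMod N) *
      ![a 0, (χ : ZMod N) * a 1] 1] = a from funext fun i => by
        fin_cases i <;> simp [← mul_assoc]]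
  · rw [mem_setFin, Set.mem_ofPred_eq] at ha
    rwa [mem_setFin]
  · funext i; fin_cases i <;> simp [← mul_assoc]
  · funext i; fin_cases i <;> simp [← mul_assoc]

end Poly

/-- The normalised series of a set of classes at `N z`. -/
def setSeries (S : Set (Fin 2 → ZMod N)) (z : ℍ) : ℂ :=
  gConst⁻¹ * gSum S (affH (posN N) 0 z)

/-- `setSeries` is periodic and bounded at `∞`. -/
theorem bddPer_setSeries (S : Set (Fin 2 → ZMod N)) : BddPer (setSeries S) := by
  have hbd : IsBoundedAtImInfty fun z => setSeries S z :=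
    (((isBoundedAtImInfty_gSum _).comp_tendsto
      (Fermat.MC.tendsto_affH _ _)).const_mul_left gConst⁻¹)
  refine ⟨mdifferentiable_const.mul (Fermat.MC.mdiff_comp_affH (mdiff_gSum _) _ _),
    periodic_ext_of_vadd fun z => ?_, hbd⟩
  simp only [setSeries, gSum_setFin]
  rw [show affH (posN N) 0 ((1 : ℝ) +ᵥ z) = (N : ℝ) +ᵥ affH (posN N) 0 z from
    UpperHalfPlane.ext (by simp [Fermat.MC.coe_affH, posN]; ring)]
  simp only [G4_vadd_natCast]

/-- The expansion of a set sum over `ℂ` is the algebraic series at the standard root of unity. -/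
theorem qS_setSeries {S : Set (Fin 2 → ZMod N)} :
    qS (setSeries S) = setL (zetaC N) S := by
  ext k
  rcases lt_or_ge k 0 with hk | hk
  · rw [qS, setL, ModularCurve.ofPowerSeries_coeff_of_neg _ hk,
      ModularCurve.ofPowerSeries_coeff_of_neg _ hk]
  · obtain ⟨n, rfl⟩ := Int.eq_ofNat_of_zero_le hk
    rw [coeff_setL]
    refine coeff_qS_eq (bddPer_setSeries S) (c := setC (zetaC N) S) (fun z => ?_) n
    have hk : gConst = 2 * (N : ℂ) ^ 4 * eisK N := by
      rw [gConst, eisK]
      field_simp [(Nat.cast_ne_zero.mpr (NeZero.ne N) : (N : ℂ) ≠ 0)]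
    rw [setSeries, gSum_setFin, hk, mul_inv, mul_assoc, Finset.mul_sum]
    have h := (hasSum_sum fun a (_ : a ∈ setFin S) =>
      hasSum_G4_posN a z).mul_left (2 * (N : ℂ) ^ 4)⁻¹
    refine h.congr_fun fun m => ?_
    rw [setC, mul_assoc, Finset.sum_mul]

end Set

variable (M q : ℕ) [NeZero M] [NeZero q] (G : Subgroup (ZMod (M * q))ˣ) [NegMem G]
  (x y : ℤ) (hdet : (q : ℤ) * x - M * y = 1)

/-- The vectors occurring in the transform of the class `d`. -/
def alSet (d : ZMod (M * q)) : Set (Fin 2 → ZMod (M * q)) :=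
  actS (swapMat M q x y hdet) (rowSet (hSet G d))

/-- Membership in `alSet`. -/
theorem mem_alSet {d : ZMod (M * q)} {w : Fin 2 → ZMod (M * q)} :
    w ∈ alSet M q G x y hdet d ↔
      (w 0 * (q : ZMod (M * q)) - w 1 * (M : ZMod (M * q))) * d ∈
        Units.val '' (G : Set (ZMod (M * q))ˣ) := by
  have hm : (((swapMat M q x y hdet)⁻¹ : SL(2, ℤ)) : Matrix (Fin 2) (Fin 2) ℤ) =
      !![(q : ℤ), -y; -(M : ℤ), x] := by
    rw [Matrix.SpecialLinearGroup.coe_inv, Matrix.adjugate_fin_two]
    rfl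
  rw [alSet, actS, Set.mem_ofPred_eq, rowSet, Set.mem_ofPred_eq, hSet, Set.mem_ofPred_eq, hm]
  simp [Matrix.vecMul, dotProduct, Fin.sum_univ_two, sub_eq_add_neg]

/-- A class congruent to one modulo `M` fixes `q` under multiplication modulo `M q`. -/
theorem q_mul_eq {a : ZMod (M * q)} (ha : (ZMod.cast a : ZMod M) = 1) :
    (q : ZMod (M * q)) * a = (q : ZMod (M * q)) := by
  obtain ⟨n, rfl⟩ := ZMod.intCast_surjective a
  rw [ZMod.cast_intCast (dvd_mul_right M q), ← Int.cast_one (R := ZMod M), ← sub_eq_zero,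
    ← Int.cast_sub, ZMod.intCast_zmod_eq_zero_iff_dvd] at ha
  obtain ⟨k, hk⟩ := ha
  have h := congrArg (fun n : ℤ => ((n * q : ℤ) : ZMod (M * q))) hk
  push_cast at h
  have hz : (M : ZMod (M * q)) * (q : ZMod (M * q)) = 0 := by
    rw [← Nat.cast_mul, ZMod.natCast_self]
  linear_combination h + (k : ZMod (M * q)) * hz

/-- The diagonal action by a unit trivial modulo `M` moves `alSet 1` to the set of its inverse. -/
theorem alSet_pow {χ : (ZMod (M * q))ˣ} (hχ : ZMod.unitsMap (dvd_mul_right M q) χ = 1) :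
    {w | ![w 0, ((χ⁻¹ : (ZMod (M * q))ˣ) : ZMod (M * q)) * w 1] ∈ alSet M q G x y hdet 1} =
      alSet M q G x y hdet ((χ⁻¹ : (ZMod (M * q))ˣ) : ZMod (M * q)) := by
  ext w
  rw [Set.mem_ofPred_eq, mem_alSet, mem_alSet]
  have hc : (ZMod.cast ((χ⁻¹ : (ZMod (M * q))ˣ) : ZMod (M * q)) : ZMod M) = 1 := by
    have := congrArg Units.val (show ZMod.unitsMap (dvd_mul_right M q) χ⁻¹ = 1 by
      rw [map_inv, hχ, inv_one])
    rwa [ZMod.unitsMap_val, Units.val_one] at this
  have hq' := q_mul_eq M q hc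
  simp only [Matrix.cons_val_zero, Matrix.cons_val_one, mul_one]
  rw [show (w 0 * (q : ZMod (M * q)) - w 1 * (M : ZMod (M * q))) *
      ((χ⁻¹ : (ZMod (M * q))ˣ) : ZMod (M * q)) =
    w 0 * (q : ZMod (M * q)) - ((χ⁻¹ : (ZMod (M * q))ˣ) : ZMod (M * q)) * w 1 * M by
      linear_combination w 0 * hq']

variable [SqOne M q G]

/-- The expansion at `M z` of the transform of a class. -/
theorem qExpand_qW_alW_gW (d : ZMod (M * q)) :
    qExpand ℂ M (qW (GammaH (M * q) G) (alW M q G x y hdet ⟨gW G d, gW_mem_W d⟩)) =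
      setL (zetaC (M * q)) (alSet M q G x y hdet d) *
        qExpand ℂ (M * q) (coeffEmb ℂ (xiQ ^ 2)) := by
  set S := alSet M q G x y hdet d
  have hA := bddPer_setSeries (N := M * q) S
  let A : perAlg := ⟨_, hA.mem_perAlg⟩
  let B : perAlg := ⟨wFour ∘ affH (posN (M * q)) 0,
    Fermat.MC.mem_perAlg_comp_posN (M * q) wFour_mem_perAlg⟩
  set f : perAlg := ⟨_, W_le_perAlg (GammaH (M * q) G)
    (alW M q G x y hdet ⟨gW G d, gW_mem_W d⟩).2⟩ with hf
  have e : (⟨(f : ℍ → ℂ) ∘ affH (posN M) 0, Fermat.MC.mem_perAlg_comp_posN M f.2⟩ : perAlg) =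
      A * B := by
    refine Subtype.ext (funext fun w => ?_)
    have haff : affH (posN q) 0 (affH (posN M) 0 w) = affH (posN (M * q)) 0 w :=
      UpperHalfPlane.ext (by simp [Fermat.MC.coe_affH, posN]; ring)
    change gW G d (swapMat M q x y hdet • affH (posN q) 0 (affH (posN M) 0 w)) =
      setSeries S w * wFour (affH (posN (M * q)) 0 w)
    rw [haff]
    simp only [gW, gN, gSum_smul, wFour_smul, setSeries]
    rw [show actS (swapMat M q x y hdet) (rowSet (hSet G d)) = S from rfl]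
    field_simp [denom_ne_zero _ _]
  rw [qW_apply, ← Fermat.MC.qL_comp_posN M f, e, map_mul]
  congr 1
  · change qL ⟨setSeries S, _⟩ = _
    rw [Fermat.MC.qL_eq_qS hA, qS_setSeries]
  · change qL ⟨wFour ∘ affH (posN (M * q)) 0, _⟩ = _
    rw [Fermat.MC.qL_comp_posN (M * q) ⟨wFour, wFour_mem_perAlg⟩, qL_wFour]

/-- The expansion at `M z` of the transform of a candidate generator. -/
def alSeries {L : Type*} [Field L] [Algebra ℚ L] (ζ : L) (t : ℕ) (d : ZMod (M * q)) :
    LaurentSeries L :=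
  setL ζ (alSet M q G x y hdet d) * qExpand L (M * q) (coeffEmb L (xiQ ^ 2)) +
    t • qExpand L M (coeffEmb L (qExpand ℚ M jq))

/-- The expansion at `M z` of the transform of a candidate generator is `alSeries`. -/
theorem qExpand_qW_alW_gWt {L : Type*} [Field L] [Algebra ℚ L] (ι : L →+* ℂ)
    [HasZeta (M * q) ι] (t : ℕ) (d : ZMod (M * q)) :
    qExpand ℂ M (qW (GammaH (M * q) G) (alW M q G x y hdet (gWt (M * q) G t d))) =
      coeffMap ι (alSeries M q G x y hdet (zetaL (M * q) ι) t d) := by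
  have : CharZero L := charZero_of_injective_algebraMap (algebraMap ℚ L).injective
  rw [gWt, map_add, map_nsmul, map_add, map_nsmul, map_add, map_nsmul,
    qExpand_qW_alW_gW M q G x y hdet, qW_alW_jN, alSeries, map_add, map_nsmul, map_mul,
    coeffMap_setL, map_zetaL, ModularCurve.coeffMap_qExpand, Fermat.MC.coeffMap_ι_coeffEmb,
    ModularCurve.coeffMap_qExpand, Fermat.MC.coeffMap_ι_coeffEmb]

/-- Galois elements fixing the roots of unity of order `M` permute the series `alSeries`. -/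
theorem coeffMap_alSeries {L : Type*} [Field L] [Algebra ℚ L] [CharZero L] {ζ : L}
    (hζ : ζ ^ (M * q) = 1) (t : ℕ) (σ : L ≃ₐ[ℚ] L) {χ : (ZMod (M * q))ˣ}
    (hσ : σ ζ = ζ ^ (χ : ZMod (M * q)).val)
    (hχ : ZMod.unitsMap (dvd_mul_right M q) χ = 1) :
    coeffMap (σ : L →+* L) (alSeries M q G x y hdet ζ t 1) =
      alSeries M q G x y hdet ζ t ((χ⁻¹ : (ZMod (M * q))ˣ) : ZMod (M * q)) := by
  rw [alSeries, alSeries, map_add, map_nsmul, map_mul, ModularCurve.coeffMap_qExpand,
    ModularCurve.coeffMap_coeffEmb, ModularCurve.coeffMap_qExpand, ModularCurve.coeffMap_coeffEmb,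
    coeffMap_setL]
  congr 2
  rw [show (σ : L →+* L) ζ = σ ζ from rfl, hσ, setL_pow hζ, alSet_pow M q G x y hdet hχ]

end Fermat.BAD.XC

end
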