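import Fermat.Agent.BAD.XC.Kummer
import Fermat.Agent.BAD.XH.Count
import Fermat.Agent.FF.Genus

/-!
# `X_G(N) → X_{G'}(N)` is unramified

There are no elliptic points, and a parabolic element of the larger level lies in the smaller one
as soon as `G' \ G` has no units `u` with `(u - 1) ^ 2 = 0`; so the genus formula leaves no room for
ramification.
-/

set_option autoImplicit false

attribute [local instance 10000] SubalgebraClass.toAlgebra HahnSeries.powerSeriesAlgebra

noncomputable section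

open AlgebraicCurve Function CongruenceSubgroup
open scoped MatrixGroups

namespace Fermat.BAD.XC

open Fermat.FF Fermat.MC Fermat.MC.Lvl Fermat.JAC.XH
open Fermat.JAC.X0 (embC)

local notation "Qb" => AlgebraicClosure ℚ

/-- The number of orbits of `zpowers δ` is the sum of the inverse periods. -/
theorem sum_inv_minimalPeriod {G α : Type*} [Group G] [MulAction G α] [Fintype α] (δ : G) :
    ∑ a : α, (1 : ℚ) / minimalPeriod (δ • ·) a =
      Nat.card (MulAction.orbitRel.Quotient (Subgroup.zpowers δ) α) := by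
  classical
  have : Finite (MulAction.orbitRel.Quotient (Subgroup.zpowers δ) α) := Quotient.finite _
  have := Fintype.ofFinite (MulAction.orbitRel.Quotient (Subgroup.zpowers δ) α)
  rw [Nat.card_eq_fintype_card, ← Finset.card_univ, ← Finset.sum_fiberwise Finset.univ (orbClass δ),
    Finset.card_eq_sum_ones, Nat.cast_sum]
  refine Finset.sum_congr rfl fun o _ => ?_
  obtain ⟨a, rfl⟩ := orbClass_surjective δ o
  have hc : ∀ b ∈ Finset.univ.filter (fun b => orbClass δ b = orbClass δ a),
      (1 : ℚ) / minimalPeriod (δ • ·) b = 1 / minimalPeriod (δ • ·) a := fun b hb => by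
    rw [← card_fibre_orbClass, ← card_fibre_orbClass]
    simp only [(Finset.mem_filter.mp hb).2]
  rw [Finset.sum_congr rfl hc, Finset.sum_const, nsmul_eq_mul, Nat.cast_one]
  have h1 : (Finset.univ.filter (fun b => orbClass δ b = orbClass δ a)).card =
      minimalPeriod (δ • ·) a := by
    rw [← card_fibre_orbClass, Nat.card_eq_fintype_card, Fintype.card_subtype]
  have h2 : 0 < minimalPeriod (δ • ·) a := by
    rw [← h1]
    exact Finset.card_pos.mpr ⟨a, by simp⟩
  rw [h1, mul_one_div, div_self (Nat.cast_ne_zero.mpr h2.ne')]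

/-- Cusps of two levels whose parabolic elements agree. -/
theorem cuspsG_eq_mul {Γ Γ' : Subgroup SL(2, ℤ)} [Γ.FiniteIndex] [Γ'.FiniteIndex] (hle : Γ ≤ Γ')
    (hpar : ∀ (g : SL(2, ℤ)) (n : ℕ), g⁻¹ * ModularGroup.T ^ n * g ∈ Γ' →
      g⁻¹ * ModularGroup.T ^ n * g ∈ Γ) :
    cuspsG Γ = Γ.relIndex Γ' * cuspsG Γ' := by
  classical
  let : Fintype (Coset Γ) := Γ.fintypeQuotientOfFiniteIndex
  let : Fintype (Coset Γ') := Γ'.fintypeQuotientOfFiniteIndex
  let p : Coset Γ → Coset Γ' := Subgroup.quotientMapOfLE hle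
  have hper : ∀ x : Coset Γ, minimalPeriod (ModularGroup.T • ·) x =
      minimalPeriod (ModularGroup.T • ·) (p x) := fun x => by
    refine minimalPeriod_eq_minimalPeriod_iff.mpr fun n => ?_
    obtain ⟨g, rfl⟩ := QuotientGroup.mk_surjective x
    rw [IsPeriodicPt, IsFixedPt, smul_iterate, IsPeriodicPt, IsFixedPt, smul_iterate]
    change (QuotientGroup.mk (ModularGroup.T ^ n * g) : Coset Γ) = QuotientGroup.mk g ↔
      (QuotientGroup.mk (ModularGroup.T ^ n * g) : Coset Γ') = QuotientGroup.mk g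
    rw [eq_comm, QuotientGroup.eq, eq_comm, QuotientGroup.eq, ← mul_assoc]
    exact ⟨fun h => hle h, hpar g n⟩
  have hsum : ∑ x : Coset Γ, (1 : ℚ) / minimalPeriod (ModularGroup.T • ·) x =
      (Γ.relIndex Γ' : ℚ) * ∑ y : Coset Γ', (1 : ℚ) / minimalPeriod (ModularGroup.T • ·) y := by
    have : Finite (↥Γ' ⧸ Γ.subgroupOf Γ') := Finite.of_equiv _ (Equiv.refl _)
    let := Fintype.ofFinite (↥Γ' ⧸ Γ.subgroupOf Γ')
    rw [Finset.sum_congr rfl fun x _ => by rw [hper x],
      ← (Subgroup.quotientEquivProdOfLE hle).symm.sum_comp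
        (fun x => (1 : ℚ) / minimalPeriod (ModularGroup.T • ·) (p x)),
      Fintype.sum_prod_type, Finset.mul_sum]
    refine Finset.sum_congr rfl fun y _ => ?_
    rw [Finset.sum_congr rfl fun z _ => by
      rw [show p ((Subgroup.quotientEquivProdOfLE hle).symm (y, z)) = y from
        congrArg Prod.fst ((Subgroup.quotientEquivProdOfLE hle).apply_symm_apply (y, z))],
      Finset.sum_const, nsmul_eq_mul, Finset.card_univ, ← Nat.card_eq_fintype_card]
    rfl
  have h := (sum_inv_minimalPeriod (α := Coset Γ) ModularGroup.T).symm.trans hsum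
  rw [sum_inv_minimalPeriod] at h
  exact_mod_cast h

variable {N : ℕ} [NeZero N] {G G' : Subgroup (ZMod N)ˣ}

omit [NeZero N] in
/-- Parabolic elements of the larger level lie in the smaller one. -/
theorem parabolic_mem (hpar : ∀ u ∈ G', ((u : ZMod N) - 1) ^ 2 = 0 → u ∈ G) (g : SL(2, ℤ)) (n : ℕ)
    (h : g⁻¹ * ModularGroup.T ^ n * g ∈ GammaH N G') :
    g⁻¹ * ModularGroup.T ^ n * g ∈ GammaH N G := by
  obtain ⟨h0, u, hu, hu'⟩ := mem_GammaH_iff.mp h
  refine mem_GammaH_iff.mpr ⟨h0, u, hpar u hu ?_, hu'⟩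
  have hT : ((ModularGroup.T ^ n : SL(2, ℤ)) : Matrix (Fin 2) (Fin 2) ℤ) =
      !![1, (n : ℤ); 0, 1] := by
    rw [← zpow_natCast, ModularGroup.coe_T_zpow]
  have hc := Gamma0_mem.mp h0
  rw [hu']
  simp only [Matrix.SpecialLinearGroup.coe_mul, hT, Matrix.SpecialLinearGroup.coe_inv,
    Matrix.adjugate_fin_two, Matrix.mul_apply, Fin.sum_univ_two] at hc ⊢
  simp only [Matrix.of_apply, Matrix.cons_val', Matrix.cons_val_zero, Matrix.cons_val_one,
    Matrix.empty_val', Matrix.cons_val_fin_one, Fin.isValue] at hc ⊢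
  have hd := congrArg (fun z : ℤ => (z : ZMod N)) g.det_coe
  rw [Matrix.det_fin_two] at hd
  push_cast at hc hd ⊢
  linear_combination ((((g 0 0 : ℤ) : ZMod N) * (g 1 1 : ℤ) - (g 0 1 : ℤ) * (g 1 0 : ℤ) - 1) +
    2 * (-(g 1 0 : ℤ) * (n : ZMod N) * (g 1 1 : ℤ))) * hd + (-(n : ZMod N) * (g 1 1 : ℤ) ^ 2) * hc

variable [NegMem G] [NegMem G']

/-- **The cover is unramified.** Without elliptic points at level `G'` and without units `u` in
`G' \ G` with `(u - 1) ^ 2 = 0`, every place of `X_G(N)` is unramified over `X_{G'}(N)`. -/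
theorem ramificationIndexAlong_eq_one (hG : G ≤ G')
    (h2 : nuTwoG (GammaH N G') = 0) (h3 : nuThreeG (GammaH N G') = 0)
    (hpar : ∀ u ∈ G', ((u : ZMod N) - 1) ^ 2 = 0 → u ∈ G)
    (w : Place Qb (FL (GammaH N G) Qb)) :
    w.ramificationIndexAlong (inclFL Qb (GammaH_mono hG)) = 1 := by
  classical
  set φ := inclFL Qb (GammaH_mono hG)
  let := algebraAlong φ
  have := isScalarTower_along φ
  have := isIntegral_along φ (isIntegral_toRingHom φ)
  have : Module.Finite (FL (GammaH N G') Qb) (FL (GammaH N G) Qb) := FF.finiteAlong φ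
  obtain ⟨R, hR, hg⟩ := FF.hurwitz (K := Qb) (F := FL (GammaH N G') Qb) (FL (GammaH N G) Qb)
  obtain ⟨h2', h3'⟩ := XH.nuG_zero_mono (GammaH_mono hG) h2 h3
  have hc := cuspsG_eq_mul (GammaH_mono hG) (parabolic_mem hpar)
  have hi : (GammaH N G).relIndex (GammaH N G') * psiG (GammaH N G') = psiG (GammaH N G) :=
    Subgroup.relIndex_mul_index (GammaH_mono hG)
  have hf : Module.finrank (FL (GammaH N G') Qb) (FL (GammaH N G) Qb) =
      (GammaH N G).relIndex (GammaH N G') := by
    have h := finrankAlong_inclFL (GammaH_mono hG) (Γ := GammaH N G') (Γ' := GammaH N G)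
    rw [← hi] at h
    exact Nat.eq_of_mul_eq_mul_right (psiG_pos _) h
  -- Both genus formulas and Hurwitz leave no room for ramification.
  have hsum : Divisor.degree R = 0 := by
    have e1 := genusFF_FL (GammaH N G) (L := Qb) embC
    have e2 := genusFF_FL (GammaH N G') (L := Qb) embC
    rw [genusFormulaG, h2', h3', hc, ← hi] at e1
    rw [genusFormulaG, h2, h3] at e2
    rw [hf] at hg
    have hgq := congrArg (fun z : ℤ => (z : ℚ)) hg
    push_cast at hgq e1 e2
    have : ((Divisor.degree R : ℤ) : ℚ) = 0 := by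
      linear_combination -hgq + 2 * e1 -
        2 * ((GammaH N G).relIndex (GammaH N G') : ℚ) * e2
    exact_mod_cast this
  change w.ramificationIndex (FL (GammaH N G') Qb) = 1
  have hnn : ∀ v, 0 ≤ R v := fun v => by
    have := v.ramificationIndex_pos (F := FL (GammaH N G') Qb)
    rw [hR]; omega
  rw [degree_eq_sum, Finsupp.sum] at hsum
  have h0 : R w = 0 := by
    by_cases hw : w ∈ R.support
    · exact (Finset.sum_eq_zero_iff_of_nonneg fun v _ => hnn v).mp hsum w hw
    · exact Finsupp.notMem_support_iff.mp hw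
  rw [hR] at h0
  omega

/-- A unit congruent to `± 1` modulo `M > 4` with `(u - 1) ^ 2 = 0` is `1`. -/
theorem eq_one_of_sq {M q : ℕ} (hq : q.Prime) (hqM : ¬ q ∣ M) (hM : 4 < M)
    {u : (ZMod (M * q))ˣ}
    (hu : ZMod.unitsMap (dvd_mul_right M q) u = 1 ∨ ZMod.unitsMap (dvd_mul_right M q) u = -1)
    (h : ((u : ZMod (M * q)) - 1) ^ 2 = 0) : u = 1 := by
  have := Fact.mk hq
  have hcop : Nat.Coprime M q := (hq.coprime_iff_not_dvd.mpr hqM).symm
  have hMq := congrArg (ZMod.castHom (dvd_mul_right M q) (ZMod M)) h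
  have hq' := congrArg (ZMod.castHom (dvd_mul_left q M) (ZMod q)) h
  simp only [map_pow, map_sub, map_one, map_zero] at hMq hq'
  have hv : ZMod.castHom (dvd_mul_right M q) (ZMod M) (u : ZMod (M * q)) =
      ((ZMod.unitsMap (dvd_mul_right M q) u : (ZMod M)ˣ) : ZMod M) := by
    simp [ZMod.unitsMap]
  rw [hv] at hMq
  rcases hu with hu | hu
  · refine Units.ext ((ZMod.chineseRemainder hcop).injective ?_)
    have e1 : ZMod.castHom (dvd_mul_left q M) (ZMod q) (u : ZMod (M * q)) = 1 :=
      sub_eq_zero.mp (pow_eq_zero_iff two_ne_zero |>.mp hq')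
    have e2 : ZMod.castHom (dvd_mul_right M q) (ZMod M) (u : ZMod (M * q)) = 1 := by
      rw [hv, hu]; rfl
    simp only [ZMod.castHom_apply] at e1 e2
    rw [Units.val_one, map_one]
    refine Prod.ext ?_ ?_
    · simpa [ZMod.chineseRemainder] using e2
    · simpa [ZMod.chineseRemainder] using e1
  · exfalso
    rw [hu, Units.val_neg, Units.val_one] at hMq
    have h4 : ((4 : ℕ) : ZMod M) = 0 := by push_cast; linear_combination hMq
    have := Nat.le_of_dvd (by norm_num) ((ZMod.natCast_eq_zero_iff _ _).mp h4)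
    omega

end Fermat.BAD.XC

end
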